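import Mathlib
import Fermat.Agent.H08.FormalSubgroup

/-!
# `p`-th roots of unity and valuations
-/

set_option autoImplicit false

namespace Fermat.Agent.N4

open Fermat.Agent.H08

variable {F : Type*} [Field F] {Γ₀ : Type*} [LinearOrderedCommGroupWithZero Γ₀]
  {v : Valuation F Γ₀} {p : ℕ} {ζ : F}

lemma val_root {η : F} {n : ℕ} (hn : n ≠ 0) (h : η ^ n = 1) : v η = 1 := by
  have h1 : v η ^ n = 1 := by rw [← map_pow, h, map_one]
  exact (pow_eq_one_iff_of_nonneg zero_le hn).mp h1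

lemma val_pow_sub_one_le {η : F} (hη : v η ≤ 1) (n : ℕ) : v (η ^ n - 1) ≤ v (η - 1) := by
  rw [← mul_geom_sum, map_mul]
  calc v (η - 1) * v (∑ i ∈ Finset.range n, η ^ i) ≤ v (η - 1) * 1 := by
        refine mul_le_mul' le_rfl ?_
        apply v.map_sum_le
        intro i _
        exact v_pow_le_one hη i
    _ = v (η - 1) := mul_one _

lemma val_root_sub_one (hp : p.Prime) (hζ : IsPrimitiveRoot ζ p) {η : F} (hη : η ^ p = 1)
    (hη1 : η ≠ 1) : v (η - 1) = v (ζ - 1) := by
  have : NeZero p := ⟨hp.ne_zero⟩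
  have h1 : ∀ a b : F, a ^ p = 1 → b ^ p = 1 → a ≠ 1 → v (b - 1) ≤ v (a - 1) := by
    intro a b ha hb ha1
    have hprim : IsPrimitiveRoot a p := by
      have h2 : orderOf a ∣ p := orderOf_dvd_of_pow_eq_one ha
      rcases (Nat.dvd_prime hp).mp h2 with h3 | h3
      · exact absurd (orderOf_eq_one_iff.mp h3) ha1
      · rw [← h3]; exact IsPrimitiveRoot.orderOf a
    obtain ⟨i, -, rfl⟩ := hprim.eq_pow_of_pow_eq_one hb
    exact val_pow_sub_one_le (val_root hp.ne_zero ha).le i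
  exact le_antisymm (h1 ζ η hζ.pow_eq_one hη (hζ.ne_one hp.one_lt))
    (h1 η ζ hη hζ.pow_eq_one hη1)

lemma val_root_sub_root (hp : p.Prime) (hζ : IsPrimitiveRoot ζ p) {η η' : F} (hη : η ^ p = 1)
    (hη' : η' ^ p = 1) (hne : η ≠ η') : v (η - η') = v (ζ - 1) := by
  have h0 : η' ≠ 0 := by
    rintro rfl
    rw [zero_pow hp.ne_zero] at hη'
    exact zero_ne_one hη'
  have h1 : (η / η') ^ p = 1 := by rw [div_pow, hη, hη', div_one]
  have h2 : η / η' ≠ 1 := by
    intro h; exact hne ((div_eq_one_iff_eq h0).mp h)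
  have h3 := val_root_sub_one (v := v) hp hζ h1 h2
  have e : η - η' = (η / η' - 1) * η' := by field_simp
  rw [e, map_mul, h3, val_root hp.ne_zero hη', mul_one]

lemma root_eq_of_close (hp : p.Prime) (hζ : IsPrimitiveRoot ζ p) {η η' : F} (hη : η ^ p = 1)
    (hη' : η' ^ p = 1) (h : v (η - η') < v (ζ - 1)) : η = η' := by
  by_contra hne
  rw [val_root_sub_root hp hζ hη hη' hne] at h
  exact lt_irrefl _ h

lemma val_zeta_pow (hp : p.Prime) (hζ : IsPrimitiveRoot ζ p) :
    v (ζ - 1) ^ (p - 1) = v (p : F) := by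
  obtain ⟨n, rfl⟩ : ∃ n, p = n + 1 := ⟨p - 1, by have := hp.pos; omega⟩
  have h := hζ.prod_one_sub_pow_eq_order
  have h1 := congrArg v h
  rw [map_prod] at h1
  have h2 : ∀ k ∈ Finset.range n, v (1 - ζ ^ (k + 1)) = v (ζ - 1) := by
    intro k hk
    rw [← neg_sub, Valuation.map_neg]
    apply val_root_sub_one hp hζ
    · rw [← pow_mul, mul_comm, pow_mul, hζ.pow_eq_one, one_pow]
    · intro h3
      have h4 := hζ.dvd_of_pow_eq_one _ h3
      have h5 := Nat.le_of_dvd (by omega) h4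
      rw [Finset.mem_range] at hk
      omega
  rw [Finset.prod_congr rfl h2, Finset.prod_const, Finset.card_range] at h1
  rw [Nat.add_sub_cancel, h1]
  push_cast
  rfl

/-- The root of unity closest to `U`. -/
theorem exists_close_root (hp : p.Prime) (hζ : IsPrimitiveRoot ζ p) {U : F}
    (h : v (U ^ p - 1) < v (p : F) * v (ζ - 1)) :
    ∃ η, η ^ p = 1 ∧ v (U - η) < v (ζ - 1) ∧ v (U - η) * v (p : F) = v (U ^ p - 1) := by
  classical
  have e := hζ.pow_sub_pow_eq_prod_sub_mul U 1 hp.pos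
  rw [one_pow] at e
  have hmem : ∀ η ∈ Polynomial.nthRootsFinset p (1 : F), η ^ p = 1 := by
    intro η hη
    exact (Polynomial.mem_nthRootsFinset hp.pos 1).mp hη
  have hcard : (Polynomial.nthRootsFinset p (1 : F)).card = p := hζ.card_nthRootsFinset
  have ev : v (U ^ p - 1) = ∏ η ∈ Polynomial.nthRootsFinset p (1 : F), v (U - η) := by
    rw [e, map_prod]
    apply Finset.prod_congr rfl
    intro η _
    rw [mul_one]
  have hpp : v (ζ - 1) ^ p = v (p : F) * v (ζ - 1) := by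
    rw [← val_zeta_pow hp hζ, ← pow_succ, Nat.sub_add_cancel hp.pos]
  obtain ⟨η, hη, hlt⟩ : ∃ η ∈ Polynomial.nthRootsFinset p (1 : F), v (U - η) < v (ζ - 1) := by
    by_contra hcon
    push Not at hcon
    rw [ev, ← hpp] at h
    have h1 : v (ζ - 1) ^ p ≤ ∏ η ∈ Polynomial.nthRootsFinset p (1 : F), v (U - η) := by
      calc v (ζ - 1) ^ p = ∏ _η ∈ Polynomial.nthRootsFinset p (1 : F), v (ζ - 1) := by
            rw [Finset.prod_const, hcard]
        _ ≤ _ := Finset.prod_le_prod (fun _ _ => zero_le) (fun η hη => hcon η hη)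
    exact absurd (h.trans_le h1) (lt_irrefl _)
  refine ⟨η, hmem η hη, hlt, ?_⟩
  rw [ev, ← Finset.mul_prod_erase _ _ hη]
  congr 1
  have h2 : ∀ η' ∈ (Polynomial.nthRootsFinset p (1 : F)).erase η, v (U - η') = v (ζ - 1) := by
    intro η' hη'
    rw [Finset.mem_erase] at hη'
    have e1 : U - η' = (U - η) + (η - η') := by ring
    have e2 : v (η - η') = v (ζ - 1) :=
      val_root_sub_root hp hζ (hmem η hη) (hmem η' hη'.2) (Ne.symm hη'.1)
    rw [e1, Valuation.map_add_eq_of_lt_right, e2]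
    rw [e2]; exact hlt
  rw [Finset.prod_congr rfl h2, Finset.prod_const, Finset.card_erase_of_mem hη, hcard,
    val_zeta_pow hp hζ]

/-- raising to the `p`-th power improves congruences -/
lemma val_pow_prime_sub_one_le (hp1 : v (p : F) < 1) {x : F}
    (hx : v (x - 1) ≤ v (p : F)) : v (x ^ p - 1) ≤ v (p : F) * v (x - 1) := by
  have hx1 : v x ≤ 1 := by
    have : x = (x - 1) + 1 := by ring
    rw [this]
    exact v_add_le_one (hx.trans hp1.le) (by simp)
  rw [← geom_sum_mul, map_mul]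
  refine mul_le_mul' ?_ le_rfl
  have e : ∑ i ∈ Finset.range p, x ^ i = ∑ i ∈ Finset.range p, (x ^ i - 1) + (p : F) := by
    rw [Finset.sum_sub_distrib]; simp
  rw [e]
  refine v.map_add_le (v.map_sum_le fun i _ => ?_) le_rfl
  exact (val_pow_sub_one_le hx1 i).trans hx

end Fermat.Agent.N4
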