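import Mathlib
import Fermat.Agent.H09.UChar

/-!
# Precise estimates for the function `u` near a node
-/

set_option autoImplicit false

namespace Fermat.Agent.N4

open WeierstrassCurve WeierstrassCurve.Affine WeierstrassCurve.Affine.Point
open Fermat.Agent.H08 Fermat.Agent.H09

variable {F : Type*} [Field F] [DecidableEq F] {Γ₀ : Type*} [LinearOrderedCommGroupWithZero Γ₀]
  {v : Valuation F Γ₀} {W : WeierstrassCurve.Affine F} {α β : F}

/-- The line through three collinear points. -/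
theorem line_data (h : NodeSlopes v W α β) {P Q : W.Point} (hP : P ≠ 0) (hQ : Q ≠ 0)
    (hPQ : P + Q ≠ 0) :
    ∃ ℓ ν : F, py P = ℓ * px P + ν ∧
      px P + px Q + px (P + Q) = (ℓ - α) * (ℓ - β) ∧
      px P * px Q * px (P + Q) = ν ^ 2 - W.a₆ ∧
      (py P - α * px P) * (py Q - α * px Q) * (py (-(P + Q)) - α * px (P + Q))
        = ν ^ 3 - W.a₆ * (ℓ - α) ^ 3 ∧
      (py P - β * px P) * (py Q - β * px Q) * (py (-(P + Q)) - β * px (P + Q))
        = ν ^ 3 - W.a₆ * (ℓ - β) ^ 3 := by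
  obtain ⟨ℓ, ν, y1, y2, y3, s1, s2, s3⟩ := exists_line hP hQ hPQ
  rw [h.a₄, h.a₃] at s2
  rw [h.a₃] at s3
  have hAB : ∀ γ γ' : F, γ + γ' = -W.a₁ → γ * γ' = -W.a₂ →
      (py P - γ * px P) * (py Q - γ * px Q) * (py (-(P + Q)) - γ * px (P + Q)) =
        ν ^ 3 - W.a₆ * (ℓ - γ) ^ 3 := by
    intro γ γ' hs hp
    have hγ : γ ^ 2 + W.a₁ * γ - W.a₂ = 0 := by linear_combination γ * hs - hp
    rw [y1, y2, y3]
    have e : (ℓ * px P + ν - γ * px P) * (ℓ * px Q + ν - γ * px Q) *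
        (ℓ * px (P + Q) + ν - γ * px (P + Q)) =
        (ℓ - γ) ^ 3 * (px P * px Q * px (P + Q)) +
        (ℓ - γ) ^ 2 * ν * (px P * px Q + px P * px (P + Q) + px Q * px (P + Q)) +
        (ℓ - γ) * ν ^ 2 * (px P + px Q + px (P + Q)) + ν ^ 3 := by ring
    rw [e, s1, s2, s3]
    linear_combination (ℓ - γ) * ν ^ 2 * hγ
  refine ⟨ℓ, ν, y1, ?_, ?_, hAB α β h.sum h.prod,
    hAB β α (by rw [add_comm]; exact h.sum) (by rw [mul_comm]; exact h.prod)⟩
  · rw [s1]; linear_combination ℓ * h.sum - h.prod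
  · rw [s3]; ring

/-- `u(P) u(Q) = u(P + Q) (1 + O(ε))` -/
theorem uFun_mul_of_line (h : NodeSlopes v W α β) {P Q : W.Point} (hP : P ≠ 0) (hQ : Q ≠ 0)
    (hPQ : P + Q ≠ 0) {ℓ ν : F} (hν : ν ≠ 0)
    (hA : (py P - α * px P) * (py Q - α * px Q) * (py (-(P + Q)) - α * px (P + Q))
        = ν ^ 3 - W.a₆ * (ℓ - α) ^ 3)
    (hB : (py P - β * px P) * (py Q - β * px Q) * (py (-(P + Q)) - β * px (P + Q))
        = ν ^ 3 - W.a₆ * (ℓ - β) ^ 3)
    {ε : Γ₀} (hε : ε < 1) (h1 : v (W.a₆ * (ℓ - α) ^ 3) ≤ ε * v ν ^ 3)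
    (h2 : v (W.a₆ * (ℓ - β) ^ 3) ≤ ε * v ν ^ 3) :
    v (uFun α β P * uFun α β Q / uFun α β (P + Q) - 1) ≤ ε := by
  have hν3 : 0 < v ν ^ 3 := pow_pos (zero_lt_iff.mpr ((Valuation.ne_zero_iff v).mpr hν)) 3
  have hlt : ε * v ν ^ 3 < v ν ^ 3 := by
    calc ε * v ν ^ 3 < 1 * v ν ^ 3 := mul_lt_mul_of_pos_right hε hν3
      _ = v ν ^ 3 := one_mul _
  have hvB : v (ν ^ 3 - W.a₆ * (ℓ - β) ^ 3) = v ν ^ 3 := by
    rw [Valuation.map_sub_eq_of_lt_left, map_pow]
    rw [map_pow]; exact lt_of_le_of_lt h2 hlt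
  have hB0 : ν ^ 3 - W.a₆ * (ℓ - β) ^ 3 ≠ 0 := by
    intro h0
    rw [h0, _root_.map_zero] at hvB
    exact hν3.ne hvB
  have hR0 : -(P + Q) ≠ 0 := fun h' => hPQ (neg_eq_zero.mp h')
  have e : uFun α β P * uFun α β Q / uFun α β (P + Q) - 1 =
      (W.a₆ * (ℓ - β) ^ 3 - W.a₆ * (ℓ - α) ^ 3) / (ν ^ 3 - W.a₆ * (ℓ - β) ^ 3) := by
    rw [div_eq_mul_inv, ← uFun_neg h, uFun_of_ne hP, uFun_of_ne hQ, uFun_of_ne hR0, px_neg,
      div_mul_div_comm, div_mul_div_comm, hA, hB, div_sub_one hB0]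
    congr 1
    ring
  rw [e, map_div₀, hvB, div_le_iff₀ hν3]
  exact (Valuation.map_sub _ _ _).trans (max_le h2 h1)

/-- The estimate on `E₁`. -/
theorem uFun_mul_E1 (h : NodeSlopes v W α β) (h6 : v W.a₆ < 1) {P Q : W.Point} {μ : Γ₀}
    (hμ : 1 < μ) (hP : P ≠ 0) (hQ : Q ≠ 0) (hPQ : P + Q ≠ 0) (hP1 : μ ≤ v (px P))
    (hQ1 : μ ≤ v (px Q)) (hPQ1 : μ ≤ v (px (P + Q))) :
    v (uFun α β P * uFun α β Q / uFun α β (P + Q) - 1) ≤ v W.a₆ * (μ⁻¹) ^ 3 := by
  obtain ⟨ℓ, ν, -, s1, s3, hA, hB⟩ := line_data h hP hQ hPQ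
  have hμ0 : μ ≠ 0 := (zero_lt_one.trans hμ).ne'
  have hμpos : 0 < μ := zero_lt_one.trans hμ
  set a := px P
  set b := px Q
  set c := px (P + Q)
  have hprod1 : 1 < v (a * b * c) := by
    rw [map_mul, map_mul]
    exact one_lt_mul_of_lt_of_le (one_lt_mul_of_lt_of_le (hμ.trans_le hP1) (hμ.le.trans hQ1))
      (hμ.le.trans hPQ1)
  have hν2 : v ν ^ 2 = v (a * b * c) := by
    have e : ν ^ 2 = a * b * c + W.a₆ := by rw [s3]; ring
    rw [← map_pow, e, Valuation.map_add_eq_of_lt_left]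
    exact h6.trans hprod1
  have hν0 : ν ≠ 0 := by
    intro h0
    rw [h0, _root_.map_zero, zero_pow two_ne_zero] at hν2
    rw [← hν2] at hprod1
    exact absurd hprod1 (by simp)
  have hNa : v a * μ ^ 2 ≤ v ν ^ 2 := by
    rw [hν2, map_mul, map_mul]
    calc v a * μ ^ 2 = v a * μ * μ := by rw [sq, mul_assoc]
      _ ≤ v a * v b * v c := mul_le_mul' (mul_le_mul' le_rfl hQ1) hPQ1
  have hNb : v b * μ ^ 2 ≤ v ν ^ 2 := by
    rw [hν2, map_mul, map_mul]
    calc v b * μ ^ 2 = μ * v b * μ := by rw [sq, ← mul_assoc, mul_comm (v b) μ]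
      _ ≤ v a * v b * v c := mul_le_mul' (mul_le_mul' hP1 le_rfl) hPQ1
  have hNc : v c * μ ^ 2 ≤ v ν ^ 2 := by
    rw [hν2, map_mul, map_mul]
    calc v c * μ ^ 2 = μ * μ * v c := by rw [sq, mul_comm]
      _ ≤ v a * v b * v c := mul_le_mul' (mul_le_mul' hP1 hQ1) le_rfl
  have hsum : v (a + b + c) * μ ^ 2 ≤ v ν ^ 2 := by
    rcases le_total (v (a + b)) (v c) with h1 | h1
    · have : v (a + b + c) ≤ v c := v.map_add_le h1 le_rfl
      exact (mul_le_mul' this le_rfl).trans hNc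
    · have h2 : v (a + b + c) ≤ v (a + b) := v.map_add_le le_rfl h1
      refine (mul_le_mul' h2 le_rfl).trans ?_
      rcases le_total (v a) (v b) with h3 | h3
      · exact (mul_le_mul' (v.map_add_le h3 le_rfl) le_rfl).trans hNb
      · exact (mul_le_mul' (v.map_add_le le_rfl h3) le_rfl).trans hNa
  have hbig : μ * μ ^ 2 ≤ v ν ^ 2 := (mul_le_mul' hP1 le_rfl).trans hNa
  have key : ∀ γ γ' : F, (ℓ - γ) * (ℓ - γ') = a + b + c → v γ ≤ 1 → v γ' ≤ 1 →
      v (ℓ - γ) * μ ≤ v ν := by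
    intro γ γ' e hγ hγ'
    by_contra hlt
    push Not at hlt
    have h1 : v ν ^ 2 < (v (ℓ - γ) * μ) ^ 2 := pow_lt_pow_left₀ hlt zero_le two_ne_zero
    rw [mul_pow] at h1
    have h2 : 1 < v (ℓ - γ) := by
      by_contra hle
      push Not at hle
      have h3 : v (ℓ - γ) ^ 2 * μ ^ 2 ≤ 1 * μ ^ 2 := mul_le_mul' (pow_le_one₀ zero_le hle) le_rfl
      have h4 : 1 * μ ^ 2 ≤ μ * μ ^ 2 := mul_le_mul' hμ.le le_rfl
      exact absurd (h1.trans_le (h3.trans (h4.trans hbig))) (lt_irrefl _)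
    have h5 : v (ℓ - γ') = v (ℓ - γ) := by
      have : ℓ - γ' = (ℓ - γ) + (γ - γ') := by ring
      rw [this, Valuation.map_add_eq_of_lt_left]
      exact lt_of_le_of_lt (v_sub_le_one hγ hγ') h2
    rw [← e, map_mul, h5, ← sq] at hsum
    exact absurd (h1.trans_le hsum) (lt_irrefl _)
  have kα := key α β s1.symm h.hα h.hβ
  have kβ := key β α (by rw [mul_comm]; exact s1.symm) h.hβ h.hα
  have hfin : ∀ γ : F, v (ℓ - γ) * μ ≤ v ν →
      v (W.a₆ * (ℓ - γ) ^ 3) ≤ v W.a₆ * (μ⁻¹) ^ 3 * v ν ^ 3 := by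
    intro γ hγ
    rw [map_mul, map_pow, mul_assoc]
    refine mul_le_mul' le_rfl ?_
    rw [← mul_pow]
    refine pow_le_pow_left₀ zero_le ?_ 3
    rw [mul_comm, ← div_eq_mul_inv, le_div_iff₀ hμpos]
    exact hγ
  refine uFun_mul_of_line h hP hQ hPQ hν0 hA hB ?_ (hfin α kα) (hfin β kβ)
  have : (μ⁻¹) ^ 3 ≤ 1 := pow_le_one₀ zero_le (inv_le_one_of_one_le₀ hμ.le)
  calc v W.a₆ * (μ⁻¹) ^ 3 ≤ v W.a₆ * 1 := mul_le_mul' le_rfl this
    _ < 1 := by rw [mul_one]; exact h6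

omit [DecidableEq F] in
/-- The `y`-coordinate near the node. -/
theorem val_py_le_near (h : NodeSlopes v W α β) {P : W.Point} (hP : P ≠ 0)
    (hz : v (px P) < 1) (hz6 : v W.a₆ < v (px P) ^ 3) : v (py P) ≤ v (px P) := by
  have e := h.mul_eq hP
  have hx3 : v (px P ^ 3 + W.a₆) = v (px P) ^ 3 := by
    rw [Valuation.map_add_eq_of_lt_left, map_pow]
    rw [map_pow]; exact hz6
  by_contra hlt
  push Not at hlt
  have hz0 : 0 < v (px P) := by
    rw [zero_lt_iff]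
    intro h0
    rw [h0, zero_pow three_ne_zero] at hz6
    exact absurd hz6 (by simp)
  have h1 : ∀ γ : F, v γ ≤ 1 → v (py P - γ * px P) = v (py P) := by
    intro γ hγ
    apply Valuation.map_sub_eq_of_lt_left
    rw [map_mul]
    exact lt_of_le_of_lt ((mul_le_mul' hγ le_rfl).trans_eq (one_mul _)) hlt
  have e2 := congrArg v e
  rw [map_mul, hx3, h1 α h.hα, h1 β h.hβ] at e2
  have h2 : v (px P) ^ 3 < v (px P) * v (px P) := by
    calc v (px P) ^ 3 = v (px P) * (v (px P) * v (px P)) := by rw [pow_succ, sq, mul_comm]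
      _ < 1 * (v (px P) * v (px P)) := mul_lt_mul_of_pos_right hz (mul_pos hz0 hz0)
      _ = v (px P) * v (px P) := one_mul _
  have h3 : v (px P) * v (px P) ≤ v (py P) * v (py P) := mul_le_mul' hlt.le hlt.le
  rw [e2] at h3
  exact absurd (h2.trans_le h3) (lt_irrefl _)

/-- The estimate near the node. -/
theorem uFun_mul_near (h : NodeSlopes v W α β) {P S : W.Point}
    (hP : P ≠ 0) (hS : S ≠ 0) (hPS : P + S ≠ 0) (hz : v (px P) < 1)
    (hz6 : v W.a₆ < v (px P) ^ 3) (hS1 : 1 < v (px S)) (hPS1 : v (px (P + S)) < 1) :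
    v (uFun α β P * uFun α β S / uFun α β (P + S) - 1) ≤ v W.a₆ / v (px P) ^ 3 := by
  obtain ⟨ℓ, ν, y1, s1, s3, hA, hB⟩ := line_data h hP hS hPS
  have hy := val_py_le_near h hP hz hz6
  have hz0 : 0 < v (px P) := by
    rw [zero_lt_iff]
    intro h0
    rw [h0, zero_pow three_ne_zero] at hz6
    exact absurd hz6 (by simp)
  have hsum : v (px P + px S + px (P + S)) = v (px S) := by
    have e : px P + px S + px (P + S) = px S + (px P + px (P + S)) := by ring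
    rw [e]
    apply Valuation.map_add_eq_of_lt_left
    exact (v.map_add_lt hz hPS1).trans hS1
  have key : ∀ γ γ' : F, (ℓ - γ) * (ℓ - γ') = px P + px S + px (P + S) → v γ ≤ 1 → v γ' ≤ 1 →
      1 < v (ℓ - γ) := by
    intro γ γ' e hγ hγ'
    by_contra hle
    push Not at hle
    have h1 : v (ℓ - γ') ≤ 1 := by
      have : ℓ - γ' = (ℓ - γ) + (γ - γ') := by ring
      rw [this]
      exact v_add_le_one hle (v_sub_le_one hγ hγ')
    have h2 : v (px S) ≤ 1 := by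
      rw [← hsum, ← e, map_mul]
      exact mul_le_one' hle h1
    exact absurd hS1 (not_lt.mpr h2)
  have hℓ : ∀ γ : F, v γ ≤ 1 → 1 < v (ℓ - γ) → v (ℓ - γ) = v ℓ ∧ 1 < v ℓ := by
    intro γ hγ h1
    have : v ℓ = v (ℓ - γ) := by
      have e : ℓ = (ℓ - γ) + γ := by ring
      conv_lhs => rw [e]
      apply Valuation.map_add_eq_of_lt_left
      exact lt_of_le_of_lt hγ h1
    exact ⟨this.symm, by rw [this]; exact h1⟩
  obtain ⟨a1, a2⟩ := hℓ α h.hα (key α β s1.symm h.hα h.hβ)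
  obtain ⟨b1, -⟩ := hℓ β h.hβ (key β α (by rw [mul_comm]; exact s1.symm) h.hβ h.hα)
  have hν : v ν = v ℓ * v (px P) := by
    have e : ν = py P - ℓ * px P := by rw [y1]; ring
    rw [e, Valuation.map_sub_eq_of_lt_right, map_mul]
    rw [map_mul]
    refine lt_of_le_of_lt hy ?_
    calc v (px P) = 1 * v (px P) := (one_mul _).symm
      _ < v ℓ * v (px P) := mul_lt_mul_of_pos_right a2 hz0
  have hν0 : ν ≠ 0 := by
    intro h0
    rw [h0, _root_.map_zero] at hν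
    exact (mul_pos (zero_lt_one.trans a2) hz0).ne hν
  have hfin : ∀ γ : F, v (ℓ - γ) = v ℓ →
      v (W.a₆ * (ℓ - γ) ^ 3) ≤ v W.a₆ / v (px P) ^ 3 * v ν ^ 3 := by
    intro γ hγ
    rw [map_mul, map_pow, hγ, hν, mul_pow, div_mul_eq_mul_div, le_div_iff₀ (pow_pos hz0 3)]
    exact (mul_assoc _ _ _).le
  refine uFun_mul_of_line h hP hS hPS hν0 hA hB ?_ (hfin α a1) (hfin β b1)
  rw [div_lt_one₀ (pow_pos hz0 3)]
  exact hz6

/-- The valuation of `u` near the node. -/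
theorem val_uFun_near (h : NodeSlopes v W α β) {P : W.Point} (hP : P ≠ 0)
    (hz : v (px P) < 1) (hz6 : v W.a₆ < v (px P) ^ 3) :
    v (uFun α β P) = v (px P) ∨ v (uFun α β P) = (v (px P))⁻¹ := by
  have e := h.mul_eq hP
  have hz0 : 0 < v (px P) := by
    rw [zero_lt_iff]
    intro h0
    rw [h0, zero_pow three_ne_zero] at hz6
    exact absurd hz6 (by simp)
  have hx3 : v (px P ^ 3 + W.a₆) = v (px P) ^ 3 := by
    rw [Valuation.map_add_eq_of_lt_left, map_pow]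
    rw [map_pow]; exact hz6
  have e2 := congrArg v e
  rw [map_mul, hx3] at e2
  set A := py P - α * px P with hA
  set B := py P - β * px P with hB
  have hdiff : v (A - B) = v (px P) := by
    have : A - B = (β - α) * px P := by rw [hA, hB]; ring
    rw [this, map_mul, h.diff, one_mul]
  have hz1 : v (px P) ^ 3 < v (px P) * v (px P) := by
    calc v (px P) ^ 3 = v (px P) * (v (px P) * v (px P)) := by rw [pow_succ, sq, mul_comm]
      _ < 1 * (v (px P) * v (px P)) := mul_lt_mul_of_pos_right hz (mul_pos hz0 hz0)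
      _ = v (px P) * v (px P) := one_mul _
  rw [uFun_of_ne hP, map_div₀]
  rcases lt_trichotomy (v A) (v B) with hlt | heq | hlt
  · left
    rw [Valuation.map_sub_eq_of_lt_right _ hlt] at hdiff
    rw [hdiff] at e2 ⊢
    rw [div_eq_iff hz0.ne']
    apply mul_right_cancel₀ hz0.ne'
    rw [e2, pow_succ, sq]
  · exfalso
    rw [heq] at e2
    have h1 : v (px P) ≤ v B := by
      rw [← hdiff]
      exact (v.map_sub _ _).trans (by rw [heq, max_self])
    have h2 := mul_le_mul' h1 h1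
    rw [e2] at h2
    exact absurd (hz1.trans_le h2) (lt_irrefl _)
  · right
    rw [Valuation.map_sub_eq_of_lt_left _ hlt] at hdiff
    rw [hdiff] at e2 ⊢
    have hB0 : v B ≠ 0 := by
      intro h0
      rw [h0, mul_zero] at e2
      exact (pow_pos hz0 3).ne e2
    rw [div_eq_iff hB0, eq_comm, inv_mul_eq_iff_eq_mul₀ hz0.ne']
    have e3 : v (px P) * v B = v (px P) * (v (px P) * v (px P)) := by
      rw [e2, pow_succ, sq, mul_comm]
    exact mul_left_cancel₀ hz0.ne' e3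

/-- The valuation of `u - 1` on `E₁`. -/
theorem val_uFun_sub_one (h : NodeSlopes v W α β) (h6 : v W.a₆ < 1) {P : W.Point} (hP : P ≠ 0)
    (hx : 1 < v (px P)) : v (uFun α β P - 1) ^ 2 = (v (px P))⁻¹ := by
  obtain ⟨e1, e2⟩ := h.val_eq h6 hP hx.le
  have hxpos : 0 < v (px P) := zero_lt_one.trans hx
  have hb0 : v (py P - β * px P) ≠ 0 := by
    intro h0
    rw [h0, zero_pow two_ne_zero] at e2
    exact (pow_pos hxpos 3).ne e2
  have hb0' : py P - β * px P ≠ 0 := fun h0 => hb0 (by rw [h0, _root_.map_zero])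
  have e : uFun α β P - 1 = (β - α) * px P / (py P - β * px P) := by
    rw [uFun_of_ne hP, div_sub_one hb0']
    congr 1
    ring
  rw [e, map_div₀, map_mul, h.diff, one_mul, div_pow, e2, pow_succ (v (px P)) 2,
    div_mul_cancel_left₀ (pow_ne_zero 2 hxpos.ne')]

end Fermat.Agent.N4
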