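import Mathlib
import Fermat.Agent.N4.UPrec
import Fermat.Agent.H09.InertiaNode

/-!
# The function `u` for a curve with node data
-/

set_option autoImplicit false

namespace Fermat.Agent.N4

open WeierstrassCurve WeierstrassCurve.Affine WeierstrassCurve.Affine.Point
open Fermat.Agent.H08 Fermat.Agent.H09

section

variable {F : Type*} [Field F] [DecidableEq F] {Γ₀ : Type*} [LinearOrderedCommGroupWithZero Γ₀]
  {v : Valuation F Γ₀} {W : WeierstrassCurve.Affine F} {r t α β : F}

/-- the function `u` on the original curve -/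
noncomputable def uu (W : WeierstrassCurve.Affine F) (r t α β : F) (P : W.Point) : F :=
  uFun α β (shiftPt W r t P)

omit [DecidableEq F] in
lemma shiftPt_ne_zero {P : W.Point} (hP : P ≠ 0) : shiftPt W r t P ≠ 0 :=
  fun h => hP (shiftPt_eq_zero.mp h)

lemma uu_zero : uu W r t α β 0 = 1 := by
  rw [uu, shiftPt_zero, uFun_zero]

lemma shiftPt_neg (P : W.Point) : shiftPt W r t (-P) = -shiftPt W r t P :=
  _root_.map_neg (shiftHom W r t) P

lemma uu_neg (h : NodeData v W r t α β) (P : W.Point) :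
    uu W r t α β (-P) = (uu W r t α β P)⁻¹ := by
  rw [uu, uu, shiftPt_neg, uFun_neg h.slopes]

omit [DecidableEq F] in
lemma val_px_sub (h : NodeData v W r t α β) {P : W.Point} (hx : 1 < v (px P)) :
    v (px P - r) = v (px P) :=
  v.map_sub_eq_of_lt_left (lt_of_le_of_lt h.hr hx)

omit [DecidableEq F] in
lemma one_lt_of_one_lt_sub (h : NodeData v W r t α β) {P : W.Point} (hx : 1 < v (px P - r)) :
    1 < v (px P) := by
  have e : px P = (px P - r) + r := by ring
  rw [e, Valuation.map_add_eq_of_lt_left]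
  · exact hx
  · exact lt_of_le_of_lt h.hr hx

/-- estimate on `E₁` -/
theorem uu_mul_E1 (h : NodeData v W r t α β) {P Q : W.Point} {μ : Γ₀} (hμ : 1 < μ)
    (hP : P ≠ 0) (hQ : Q ≠ 0) (hPQ : P + Q ≠ 0) (hP1 : μ ≤ v (px P)) (hQ1 : μ ≤ v (px Q))
    (hPQ1 : μ ≤ v (px (P + Q))) :
    v (uu W r t α β P * uu W r t α β Q / uu W r t α β (P + Q) - 1)
      ≤ v (shiftCurve W r t).a₆ * (μ⁻¹) ^ 3 := by
  have h1 : shiftPt W r t P + shiftPt W r t Q ≠ 0 := by
    rw [← shiftPt_add]; exact shiftPt_ne_zero hPQ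
  have := uFun_mul_E1 h.slopes h.a₆ hμ (shiftPt_ne_zero hP) (shiftPt_ne_zero hQ) h1
    (by rw [px_shiftPt hP, val_px_sub h (hμ.trans_le hP1)]; exact hP1)
    (by rw [px_shiftPt hQ, val_px_sub h (hμ.trans_le hQ1)]; exact hQ1)
    (by rw [← shiftPt_add, px_shiftPt hPQ, val_px_sub h (hμ.trans_le hPQ1)]; exact hPQ1)
  rw [← shiftPt_add] at this
  exact this

/-- estimate near the node -/
theorem uu_mul_near (h : NodeData v W r t α β) {P S : W.Point} (hP : P ≠ 0) (hS : S ≠ 0)
    (hPS : P + S ≠ 0) (hz : v (px P - r) < 1)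
    (hz6 : v (shiftCurve W r t).a₆ < v (px P - r) ^ 3) (hS1 : 1 < v (px S))
    (hPS1 : v (px (P + S) - r) < 1) :
    v (uu W r t α β P * uu W r t α β S / uu W r t α β (P + S) - 1)
      ≤ v (shiftCurve W r t).a₆ / v (px P - r) ^ 3 := by
  have h1 : shiftPt W r t P + shiftPt W r t S ≠ 0 := by
    rw [← shiftPt_add]; exact shiftPt_ne_zero hPS
  have := uFun_mul_near h.slopes (shiftPt_ne_zero hP) (shiftPt_ne_zero hS) h1
    (by rw [px_shiftPt hP]; exact hz) (by rw [px_shiftPt hP]; exact hz6)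
    (by rw [px_shiftPt hS, val_px_sub h hS1]; exact hS1)
    (by rw [← shiftPt_add, px_shiftPt hPS]; exact hPS1)
  rw [← shiftPt_add, px_shiftPt hP] at this
  exact this

theorem val_uu_near (h : NodeData v W r t α β) {P : W.Point} (hP : P ≠ 0)
    (hz : v (px P - r) < 1) (hz6 : v (shiftCurve W r t).a₆ < v (px P - r) ^ 3) :
    v (uu W r t α β P) = v (px P - r) ∨ v (uu W r t α β P) = (v (px P - r))⁻¹ := by
  have := val_uFun_near h.slopes (shiftPt_ne_zero hP) (by rw [px_shiftPt hP]; exact hz)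
    (by rw [px_shiftPt hP]; exact hz6)
  rw [px_shiftPt hP] at this
  exact this

theorem val_uu_sub_one (h : NodeData v W r t α β) {P : W.Point} (hP : P ≠ 0)
    (hx : 1 < v (px P)) : v (uu W r t α β P - 1) ^ 2 = (v (px P))⁻¹ := by
  have := val_uFun_sub_one h.slopes h.a₆ (shiftPt_ne_zero hP)
    (by rw [px_shiftPt hP, val_px_sub h hx]; exact hx)
  rw [px_shiftPt hP, val_px_sub h hx] at this
  exact this

theorem val_uu_sub_one_lt (h : NodeData v W r t α β) {P : W.Point} (hP : P ≠ 0)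
    (hx : 1 < v (px P)) : v (uu W r t α β P - 1) < 1 := by
  have h1 := val_uu_sub_one h hP hx
  by_contra hcon
  push Not at hcon
  have h2 : (1 : Γ₀) ≤ v (uu W r t α β P - 1) ^ 2 := one_le_pow₀ hcon
  rw [h1] at h2
  exact absurd h2 (not_le.mpr (inv_lt_one_of_one_lt₀ hx))

theorem val_uu_E1 (h : NodeData v W r t α β) {P : W.Point} (hP : InE1 v P) :
    v (uu W r t α β P) = 1 := by
  by_cases h0 : P = 0
  · subst h0; rw [uu_zero, map_one]
  · have e : uu W r t α β P = 1 + (uu W r t α β P - 1) := by ring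
    rw [e, Valuation.map_add_eq_of_lt_left, map_one]
    rw [map_one]
    exact val_uu_sub_one_lt h h0 (hP.resolve_left h0)

end

section galois

variable {L : Type*} [Field L] [DecidableEq L] [CharZero L] {W₀ : WeierstrassCurve.Affine ℚ}
  {r t α β : L}

/-- Inertia commutes with `u`. -/
theorem uu_smul {A : ValuationSubring L} {σ : L ≃ₐ[ℚ] L} (hσ : σ ∈ A.inertiaSubgroupIn ℚ)
    (h : NodeData A.valuation (W₀⁄L) r t α β) (P : (W₀⁄L).Point) :
    uu (W₀⁄L) r t α β (σ • P) = σ (uu (W₀⁄L) r t α β P) := by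
  obtain ⟨hr, ht, hα, hβ⟩ := node_fixed hσ h
  by_cases h0 : P = 0
  · subst h0; rw [smul_zero_pt, uu_zero, map_one]
  have h0' := smul_ne_zero' σ h0
  rw [uu, uu, uFun_of_ne (shiftPt_ne_zero h0), uFun_of_ne (shiftPt_ne_zero h0'),
    px_shiftPt h0, px_shiftPt h0', py_shiftPt h0, py_shiftPt h0', px_smul, py_smul]
  simp only [map_div₀, map_sub, map_mul, hr, ht, hα, hβ]

end galois

end Fermat.Agent.N4
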