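import Mathlib
import Fermat.Agent.N4.UNode
import Fermat.Agent.N4.RootUnity

/-!
# The `p`-torsion in the kernel of reduction, for multiplicative reduction at `p`
-/

set_option autoImplicit false

namespace Fermat.Agent.N4

open WeierstrassCurve WeierstrassCurve.Affine WeierstrassCurve.Affine.Point
open Fermat.Agent.H08 Fermat.Agent.H09

section

variable {F : Type*} [Field F] {Γ₀ : Type*} [LinearOrderedCommGroupWithZero Γ₀]
  {v : Valuation F Γ₀} {p : ℕ} {ζ : F}

lemma val_mul_sub_one_le {ε : Γ₀} (hε : ε ≤ 1) {a b : F} (ha : v (a - 1) ≤ ε)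
    (hb : v (b - 1) ≤ ε) : v (a * b - 1) ≤ ε := by
  have hb1 : v b ≤ 1 := by
    have : b = (b - 1) + 1 := by ring
    rw [this]
    exact v_add_le_one (hb.trans hε) (by simp)
  have e : a * b - 1 = (a - 1) * b + (b - 1) := by ring
  rw [e]
  refine v.map_add_le ?_ hb
  rw [map_mul]
  exact (mul_le_mul' ha hb1).trans_eq (mul_one _)

lemma val_mul_sub_one_lt {ε : Γ₀} (hε : ε ≤ 1) {a b : F} (ha : v (a - 1) < ε)
    (hb : v (b - 1) < ε) : v (a * b - 1) < ε := by
  have hb1 : v b ≤ 1 := by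
    have : b = (b - 1) + 1 := by ring
    rw [this]
    exact v_add_le_one (hb.le.trans hε) (by simp)
  have e : a * b - 1 = (a - 1) * b + (b - 1) := by ring
  rw [e]
  refine v.map_add_lt ?_ hb
  rw [map_mul]
  exact lt_of_le_of_lt ((mul_le_mul' le_rfl hb1).trans_eq (mul_one _)) ha

lemma val_eq_one_of_sub_one_lt {a : F} (ha : v (a - 1) < 1) : v a = 1 := by
  have e : a = 1 + (a - 1) := by ring
  rw [e, Valuation.map_add_eq_of_lt_left, map_one]
  rw [map_one]; exact ha

lemma val_inv_sub_one {a : F} (ha : v (a - 1) < 1) : v (a⁻¹ - 1) = v (a - 1) := by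
  have h1 := val_eq_one_of_sub_one_lt ha
  have h0 : a ≠ 0 := by
    intro h; rw [h, _root_.map_zero] at h1; exact zero_ne_one h1
  have e : a⁻¹ - 1 = -((a - 1) / a) := by field_simp; ring
  rw [e, Valuation.map_neg, map_div₀, h1, div_one]

lemma v_intCast_le_one (v : Valuation F Γ₀) (a : ℤ) : v (a : F) ≤ 1 := by
  obtain ⟨n, rfl | rfl⟩ := a.eq_nat_or_neg
  · rw [Int.cast_natCast]; exact v_natCast_le_one v n
  · rw [Int.cast_neg, Int.cast_natCast, Valuation.map_neg]; exact v_natCast_le_one v n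

/-- residue characteristic `p` and a primitive `p`-th root of unity -/
structure ResP (v : Valuation F Γ₀) (p : ℕ) (ζ : F) : Prop where
  hp : p.Prime
  hp2 : p ≠ 2
  lt : v (p : F) < 1
  hζ : IsPrimitiveRoot ζ p

namespace ResP

lemma cop (R : ResP v p ζ) {n : ℕ} (hn : ¬ p ∣ n) : v (n : F) = 1 := by
  apply le_antisymm (v_natCast_le_one v n)
  by_contra hlt
  push Not at hlt
  have hcop : Nat.Coprime n p := ((Nat.Prime.coprime_iff_not_dvd R.hp).mpr hn).symm
  have h1 : IsCoprime (n : ℤ) (p : ℤ) := Nat.isCoprime_iff_coprime.mpr hcop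
  obtain ⟨a, b, hab⟩ := h1
  have h2 : ((a : F) * (n : F) + (b : F) * (p : F)) = 1 := by exact_mod_cast congrArg (Int.cast : ℤ → F) hab
  have h3 : v ((a : F) * (n : F) + (b : F) * (p : F)) < 1 :=
    v_add_lt_one (v_mul_lt_one_right (v_intCast_le_one v a) hlt)
      (v_mul_lt_one_right (v_intCast_le_one v b) R.lt)
  rw [h2, map_one] at h3
  exact lt_irrefl _ h3

lemma pow_eq (R : ResP v p ζ) : v (ζ - 1) ^ (p - 1) = v (p : F) := val_zeta_pow R.hp R.hζ

lemma lam_pos (R : ResP v p ζ) : 0 < v (ζ - 1) := by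
  rw [zero_lt_iff, Valuation.ne_zero_iff, sub_ne_zero]
  exact R.hζ.ne_one R.hp.one_lt

lemma lam_lt (R : ResP v p ζ) : v (ζ - 1) < 1 := by
  by_contra hcon
  push Not at hcon
  have := one_le_pow₀ hcon (n := p - 1)
  rw [R.pow_eq] at this
  exact absurd R.lt (not_lt.mpr this)

lemma p_lt_lam (R : ResP v p ζ) : v (p : F) < v (ζ - 1) := by
  rw [← R.pow_eq]
  have h1 := R.hp.two_le
  have h2 := R.hp2
  calc v (ζ - 1) ^ (p - 1) < v (ζ - 1) ^ 1 :=
        pow_lt_pow_right_of_lt_one₀ R.lam_pos R.lam_lt (by omega)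
    _ = v (ζ - 1) := pow_one _

lemma p_pos (R : ResP v p ζ) : 0 < v (p : F) := by
  rw [← R.pow_eq]; exact pow_pos R.lam_pos _

end ResP

/-- If `u` is far from `1`. -/
lemma val_pow_sub_one_of_gt (hp : p.Prime) (hζ : IsPrimitiveRoot ζ p) {U : F}
    (h : v (ζ - 1) < v (U - 1)) : v (U ^ p - 1) = v (U - 1) ^ p := by
  classical
  have e := hζ.pow_sub_pow_eq_prod_sub_mul U 1 hp.pos
  rw [one_pow] at e
  rw [e, map_prod]
  have h1 : ∀ η ∈ Polynomial.nthRootsFinset p (1 : F), v (U - η * 1) = v (U - 1) := by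
    intro η hη
    have hη' : η ^ p = 1 := (Polynomial.mem_nthRootsFinset hp.pos 1).mp hη
    have e1 : U - η * 1 = (U - 1) - (η - 1) := by ring
    rw [e1]
    apply Valuation.map_sub_eq_of_lt_left
    by_cases h1 : η = 1
    · rw [h1, sub_self, _root_.map_zero]
      exact lt_of_le_of_lt zero_le h
    · rw [val_root_sub_one hp hζ hη' h1]; exact h
  rw [Finset.prod_congr rfl h1, Finset.prod_const, hζ.card_nthRootsFinset]

open Classical in
/-- the root of unity closest to `U` -/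
noncomputable def rt (v : Valuation F Γ₀) (p : ℕ) (ζ : F) (U : F) : F :=
  if h : ∃ η, η ^ p = 1 ∧ v (U - η) < v (ζ - 1) then h.choose else 1

lemma rt_eq (hp : p.Prime) (hζ : IsPrimitiveRoot ζ p) {U η : F} (hη : η ^ p = 1)
    (h : v (U - η) < v (ζ - 1)) : rt v p ζ U = η := by
  have hex : ∃ η, η ^ p = 1 ∧ v (U - η) < v (ζ - 1) := ⟨η, hη, h⟩
  rw [rt, dif_pos hex]
  obtain ⟨h1, h2⟩ := hex.choose_spec
  apply root_eq_of_close (v := v) hp hζ h1 hη
  have e : hex.choose - η = (U - η) - (U - hex.choose) := by ring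
  rw [e]
  exact v.map_sub_lt h h2

lemma rt_spec {U : F} (h : ∃ η, η ^ p = 1 ∧ v (U - η) < v (ζ - 1)) :
    rt v p ζ U ^ p = 1 ∧ v (U - rt v p ζ U) < v (ζ - 1) := by
  rw [rt, dif_pos h]
  exact h.choose_spec

end

section curve

variable {F : Type*} [Field F] [DecidableEq F] {Γ₀ : Type*} [LinearOrderedCommGroupWithZero Γ₀]
  {v : Valuation F Γ₀} {W : WeierstrassCurve.Affine F} {r t α β : F} {p : ℕ} {ζ : F}

lemma px_nsmul_val (hW : IsIntegralFor v W) {T : W.Point} (h1 : 1 < v (px T)) {n : ℕ}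
    (hn : v (n : F) = 1) : n • T ≠ 0 ∧ v (px (n • T)) = v (px T) := by
  obtain ⟨-, h2⟩ := mult_formula hW h1 n
  have h3 : v ((n : F) ^ 2) = 1 := by rw [map_pow, hn, one_pow]
  have h4 : v ((px (n • T))⁻¹ * px T) = 1 := by
    have e : (px (n • T))⁻¹ * px T = (n : F) ^ 2 + ((px (n • T))⁻¹ * px T - (n : F) ^ 2) := by ring
    rw [e, Valuation.map_add_eq_of_lt_left, h3]
    rw [h3]; exact h2
  have h5 : px (n • T) ≠ 0 := by
    intro h0
    rw [h0, inv_zero, zero_mul, _root_.map_zero] at h4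
    exact zero_ne_one h4
  refine ⟨?_, ?_⟩
  · intro h0
    apply h5
    rw [h0]; rfl
  · rw [map_mul, map_inv₀, inv_mul_eq_one₀] at h4
    · exact h4
    · exact (Valuation.ne_zero_iff v).mpr h5

/-- `u(T)^p` is close to `1`. -/
theorem val_uu_pow_sub_one (R : ResP v p ζ) (h : NodeData v W r t α β) {T : W.Point}
    (hT : T ≠ 0) (hT1 : InE1 v T) (hpT : p • T = 0) :
    v (uu W r t α β T ^ p - 1) ≤ v (shiftCurve W r t).a₆ * v (uu W r t α β T - 1) ^ 6 := by
  have hx : 1 < v (px T) := hT1.resolve_left hT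
  have hp1 := R.hp.one_lt
  set ε := v (shiftCurve W r t).a₆ * (v (px T))⁻¹ ^ 3 with hε
  have hε1 : ε ≤ 1 := by
    have h1 : (v (px T))⁻¹ ^ 3 ≤ 1 := pow_le_one₀ zero_le (inv_le_one_of_one_le₀ hx.le)
    exact mul_le_one' h.a₆.le h1
  have huT : v (uu W r t α β T) = 1 := val_uu_E1 h hT1
  have hmul : ∀ j : ℕ, 1 ≤ j → j ≤ p - 1 →
      v (uu W r t α β T ^ j / uu W r t α β (j • T) - 1) ≤ ε := by
    intro j hj
    induction j, hj using Nat.le_induction with
    | base =>
      intro _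
      rw [pow_one, one_nsmul, div_self, sub_self, _root_.map_zero]
      · exact zero_le
      · intro h0; rw [h0, _root_.map_zero] at huT; exact zero_ne_one huT
    | succ j hj ih =>
      intro hj2
      have ih' := ih (by omega)
      have n1 : ¬ p ∣ j := fun hd => by have := Nat.le_of_dvd (by omega) hd; omega
      have n2 : ¬ p ∣ (j + 1) := fun hd => by have := Nat.le_of_dvd (by omega) hd; omega
      obtain ⟨a1, a2⟩ := px_nsmul_val h.int hx (R.cop n1)
      obtain ⟨b1, b2⟩ := px_nsmul_val h.int hx (R.cop n2)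
      rw [succ_nsmul] at b1 b2
      have hj3 := uu_mul_E1 h hx a1 hT b1 a2.ge le_rfl b2.ge
      have huj : v (uu W r t α β (j • T)) = 1 := val_uu_E1 h (Or.inr (by rw [a2]; exact hx))
      have huj0 : uu W r t α β (j • T) ≠ 0 := by
        intro h0; rw [h0, _root_.map_zero] at huj; exact zero_ne_one huj
      have e : uu W r t α β T ^ (j + 1) / uu W r t α β ((j + 1) • T) =
          (uu W r t α β T ^ j / uu W r t α β (j • T)) *
          (uu W r t α β (j • T) * uu W r t α β T / uu W r t α β (j • T + T)) := by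
        rw [succ_nsmul, pow_succ]
        field_simp
      rw [e]
      exact val_mul_sub_one_le hε1 ih' hj3
  have h1 := hmul (p - 1) (by omega) le_rfl
  have h2 : (p - 1) • T = -T := by
    have e : (p - 1) • T + T = 0 := by rw [← succ_nsmul, show p - 1 + 1 = p by omega, hpT]
    exact eq_neg_of_add_eq_zero_left e
  rw [h2, uu_neg h, div_inv_eq_mul, ← pow_succ, Nat.sub_add_cancel hp1.le] at h1
  rw [show (6 : ℕ) = 2 * 3 by norm_num, pow_mul, val_uu_sub_one h hT hx]
  exact h1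

/-- `v(u(T) - 1) = v(ζ - 1)` -/
theorem val_uu_sub_one_eq (R : ResP v p ζ) (h : NodeData v W r t α β)
    (hδ : v (shiftCurve W r t).a₆ ≤ v (p : F)) {T : W.Point}
    (hT : T ≠ 0) (hT1 : InE1 v T) (hpT : p • T = 0) :
    v (uu W r t α β T - 1) = v (ζ - 1) := by
  have hx : 1 < v (px T) := hT1.resolve_left hT
  have h1 := val_uu_pow_sub_one R h hT hT1 hpT
  have h2 := val_uu_sub_one h hT hx
  have hlt := val_uu_sub_one_lt h hT hx
  set U := uu W r t α β T with hU
  have hpos : 0 < v (U - 1) := by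
    rw [zero_lt_iff]
    intro h0
    rw [h0, zero_pow two_ne_zero] at h2
    exact (inv_ne_zero (zero_lt_one.trans hx).ne') h2.symm
  have h3 : v (U ^ p - 1) ≤ v (p : F) * v (U - 1) ^ 6 := h1.trans (mul_le_mul' hδ le_rfl)
  rcases lt_trichotomy (v (U - 1)) (v (ζ - 1)) with hc | hc | hc
  · exfalso
    have h4 : v (p : F) * v (U - 1) ^ 6 < v (p : F) * v (U - 1) := by
      apply mul_lt_mul_of_pos_left _ R.p_pos
      calc v (U - 1) ^ 6 < v (U - 1) ^ 1 :=
            pow_lt_pow_right_of_lt_one₀ hpos hlt (by norm_num)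
        _ = v (U - 1) := pow_one _
    have h5 : v (U ^ p - 1) < v (p : F) * v (ζ - 1) :=
      (h3.trans_lt h4).trans (mul_lt_mul_of_pos_left hc R.p_pos)
    obtain ⟨η, e1, e2, e3⟩ := exists_close_root R.hp R.hζ h5
    have e4 : η = 1 := by
      apply root_eq_of_close (v := v) R.hp R.hζ e1 (one_pow p)
      have : η - 1 = (U - 1) - (U - η) := by ring
      rw [this]
      exact v.map_sub_lt hc e2
    rw [e4, mul_comm] at e3
    rw [← e3] at h3
    exact absurd (h3.trans_lt h4) (lt_irrefl _)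
  · exact hc
  · exfalso
    have h4 := val_pow_sub_one_of_gt R.hp R.hζ hc
    rw [h4, ← R.pow_eq] at h3
    have h5 : v (ζ - 1) ^ (p - 1) * v (U - 1) ^ 6 < v (U - 1) ^ (p - 1) * v (U - 1) ^ 6 := by
      apply mul_lt_mul_of_pos_right _ (pow_pos hpos 6)
      apply pow_lt_pow_left₀ hc zero_le
      have := R.hp.two_le; omega
    have h6 : v (U - 1) ^ (p - 1) * v (U - 1) ^ 6 ≤ v (U - 1) ^ p := by
      rw [← pow_add]
      exact pow_le_pow_of_le_one zero_le hlt.le (by omega)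
    exact absurd (h3.trans_lt (h5.trans_le h6)) (lt_irrefl _)

/-- The root of unity attached to a torsion point in the kernel of reduction. -/
theorem exists_root_uu (R : ResP v p ζ) (h : NodeData v W r t α β)
    (hδ : v (shiftCurve W r t).a₆ ≤ v (p : F)) {T : W.Point}
    (hT : T ≠ 0) (hT1 : InE1 v T) (hpT : p • T = 0) :
    ∃ η, η ^ p = 1 ∧ v (uu W r t α β T - η) < v (ζ - 1) ∧
      v (uu W r t α β T - η) * v (p : F) ≤ v (shiftCurve W r t).a₆ := by
  have h1 := val_uu_pow_sub_one R h hT hT1 hpT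
  rw [val_uu_sub_one_eq R h hδ hT hT1 hpT] at h1
  have h2 : v (shiftCurve W r t).a₆ * v (ζ - 1) ^ 6 < v (p : F) * v (ζ - 1) := by
    calc v (shiftCurve W r t).a₆ * v (ζ - 1) ^ 6 ≤ v (p : F) * v (ζ - 1) ^ 6 :=
          mul_le_mul' hδ le_rfl
      _ < v (p : F) * v (ζ - 1) ^ 1 := by
          apply mul_lt_mul_of_pos_left _ R.p_pos
          exact pow_lt_pow_right_of_lt_one₀ R.lam_pos R.lam_lt (by norm_num)
      _ = v (p : F) * v (ζ - 1) := by rw [pow_one]
  obtain ⟨η, e1, e2, e3⟩ := exists_close_root R.hp R.hζ (h1.trans_lt h2)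
  refine ⟨η, e1, e2, ?_⟩
  rw [e3]
  refine h1.trans ?_
  exact (mul_le_mul' le_rfl (pow_le_one₀ zero_le R.lam_lt.le)).trans_eq (mul_one _)

/-- the character on `E₁[p]` -/
noncomputable def chi (v : Valuation F Γ₀) (p : ℕ) (ζ : F) (W : WeierstrassCurve.Affine F)
    (r t α β : F) (T : W.Point) : F := rt v p ζ (uu W r t α β T)

theorem chi_spec (R : ResP v p ζ) (h : NodeData v W r t α β)
    (hδ : v (shiftCurve W r t).a₆ ≤ v (p : F)) {T : W.Point}
    (hT1 : InE1 v T) (hpT : p • T = 0) :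
    chi v p ζ W r t α β T ^ p = 1 ∧
      v (uu W r t α β T - chi v p ζ W r t α β T) < v (ζ - 1) ∧
      v (uu W r t α β T - chi v p ζ W r t α β T) * v (p : F) ≤ v (shiftCurve W r t).a₆ := by
  by_cases hT : T = 0
  · have h1 : chi v p ζ W r t α β T = 1 := by
      rw [chi, hT, uu_zero]
      exact rt_eq R.hp R.hζ (one_pow p) (by rw [sub_self, _root_.map_zero]; exact R.lam_pos)
    rw [h1, hT, uu_zero, sub_self, _root_.map_zero, zero_mul, one_pow]
    exact ⟨rfl, R.lam_pos, zero_le⟩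
  · obtain ⟨η, e1, e2, e3⟩ := exists_root_uu R h hδ hT hT1 hpT
    have h1 : chi v p ζ W r t α β T = η := rt_eq R.hp R.hζ e1 e2
    rw [h1]
    exact ⟨e1, e2, e3⟩

theorem chi_eq (R : ResP v p ζ) {T : W.Point} {η : F} (hη : η ^ p = 1)
    (h1 : v (uu W r t α β T - η) < v (ζ - 1)) : chi v p ζ W r t α β T = η :=
  rt_eq R.hp R.hζ hη h1

theorem chi_ne_one (R : ResP v p ζ) (h : NodeData v W r t α β)
    (hδ : v (shiftCurve W r t).a₆ ≤ v (p : F)) {T : W.Point}
    (hT : T ≠ 0) (hT1 : InE1 v T) (hpT : p • T = 0) : chi v p ζ W r t α β T ≠ 1 := by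
  intro h1
  obtain ⟨-, h2, -⟩ := chi_spec R h hδ hT1 hpT
  rw [h1, val_uu_sub_one_eq R h hδ hT hT1 hpT] at h2
  exact lt_irrefl _ h2

theorem chi_zero (R : ResP v p ζ) : chi v p ζ W r t α β 0 = 1 := by
  rw [chi, uu_zero]
  exact rt_eq R.hp R.hζ (one_pow p) (by rw [sub_self, _root_.map_zero]; exact R.lam_pos)

theorem chi_neg (R : ResP v p ζ) (h : NodeData v W r t α β)
    (hδ : v (shiftCurve W r t).a₆ ≤ v (p : F)) {T : W.Point}
    (hT1 : InE1 v T) (hpT : p • T = 0) :
    chi v p ζ W r t α β (-T) = (chi v p ζ W r t α β T)⁻¹ := by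
  obtain ⟨h1, h2, -⟩ := chi_spec R h hδ hT1 hpT
  apply chi_eq R
  · rw [inv_pow, h1, inv_one]
  · have h3 : v (chi v p ζ W r t α β T) = 1 := val_root R.hp.ne_zero h1
    have h4 : v (uu W r t α β T) = 1 := val_uu_E1 h hT1
    have n1 : chi v p ζ W r t α β T ≠ 0 := by
      intro h0; rw [h0, _root_.map_zero] at h3; exact zero_ne_one h3
    have n2 : uu W r t α β T ≠ 0 := by
      intro h0; rw [h0, _root_.map_zero] at h4; exact zero_ne_one h4
    rw [uu_neg h]
    have e : (uu W r t α β T)⁻¹ - (chi v p ζ W r t α β T)⁻¹ =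
        -((uu W r t α β T - chi v p ζ W r t α β T) /
          (uu W r t α β T * chi v p ζ W r t α β T)) := by
      field_simp; ring
    rw [e, Valuation.map_neg, map_div₀, map_mul, h3, h4, mul_one, div_one]
    exact h2

theorem val_px_E1_tors (R : ResP v p ζ) (h : NodeData v W r t α β)
    (hδ : v (shiftCurve W r t).a₆ ≤ v (p : F)) {T : W.Point}
    (hT : T ≠ 0) (hT1 : InE1 v T) (hpT : p • T = 0) : (v (px T))⁻¹ = v (ζ - 1) ^ 2 := by
  rw [← val_uu_sub_one h hT (hT1.resolve_left hT), val_uu_sub_one_eq R h hδ hT hT1 hpT]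

theorem chi_add (R : ResP v p ζ) (h : NodeData v W r t α β)
    (hδ : v (shiftCurve W r t).a₆ ≤ v (p : F)) {T T' : W.Point}
    (hT1 : InE1 v T) (hpT : p • T = 0) (hT1' : InE1 v T') (hpT' : p • T' = 0) :
    chi v p ζ W r t α β (T + T') = chi v p ζ W r t α β T * chi v p ζ W r t α β T' := by
  by_cases hT : T = 0
  · rw [hT, zero_add, chi_zero R, one_mul]
  by_cases hT' : T' = 0
  · rw [hT', add_zero, chi_zero R, mul_one]
  obtain ⟨h1, h2, -⟩ := chi_spec R h hδ hT1 hpT
  obtain ⟨h1', h2', -⟩ := chi_spec R h hδ hT1' hpT'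
  have h3 : v (chi v p ζ W r t α β T) = 1 := val_root R.hp.ne_zero h1
  have n1 : chi v p ζ W r t α β T ≠ 0 := by
    intro h0; rw [h0, _root_.map_zero] at h3; exact zero_ne_one h3
  by_cases hTT : T + T' = 0
  · have e : T' = -T := by rw [← sub_eq_zero, sub_neg_eq_add, add_comm]; exact hTT
    rw [hTT, chi_zero R, e, chi_neg R h hδ hT1 hpT, mul_inv_cancel₀ n1]
  have hE : InE1 v (T + T') := InE1.add h.int hT1 hT1'
  have hpTT : p • (T + T') = 0 := by rw [smul_add, hpT, hpT', add_zero]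
  have hx : 1 < v (px T) := hT1.resolve_left hT
  have vx : ∀ {T T' : W.Point}, (v (px T))⁻¹ = v (ζ - 1) ^ 2 → (v (px T'))⁻¹ = v (ζ - 1) ^ 2 →
      v (px T) ≤ v (px T') := by
    intro T T' a b
    have : v (px T) = v (px T') := inv_injective (a.trans b.symm)
    exact this.le
  have v1 := val_px_E1_tors R h hδ hT hT1 hpT
  have v2 := val_px_E1_tors R h hδ hT' hT1' hpT'
  have v3 := val_px_E1_tors R h hδ hTT hE hpTT
  have h5 := uu_mul_E1 h hx hT hT' hTT le_rfl (vx v1 v2) (vx v1 v3)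
  have h6 : v (uu W r t α β T * uu W r t α β T' / uu W r t α β (T + T') - 1) < v (ζ - 1) := by
    refine h5.trans_lt ?_
    have : (v (px T))⁻¹ ^ 3 ≤ 1 := pow_le_one₀ zero_le (inv_le_one_of_one_le₀ hx.le)
    calc v (shiftCurve W r t).a₆ * (v (px T))⁻¹ ^ 3 ≤ v (p : F) * 1 := mul_le_mul' hδ this
      _ = v (p : F) := mul_one _
      _ < v (ζ - 1) := R.p_lt_lam
  have u1 : v (uu W r t α β T) = 1 := val_uu_E1 h hT1
  have u2 : v (uu W r t α β T') = 1 := val_uu_E1 h hT1'
  have u3 : v (uu W r t α β (T + T')) = 1 := val_uu_E1 h hE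
  have h3' : v (chi v p ζ W r t α β T') = 1 := val_root R.hp.ne_zero h1'
  have m3 : uu W r t α β (T + T') ≠ 0 := by
    intro h0; rw [h0, _root_.map_zero] at u3; exact zero_ne_one u3
  apply chi_eq R
  · rw [mul_pow, h1, h1', one_mul]
  · set a := uu W r t α β T
    set b := uu W r t α β T'
    set c := uu W r t α β (T + T')
    set a' := chi v p ζ W r t α β T
    set b' := chi v p ζ W r t α β T'
    have e : c - a' * b' = -(c * (a * b / c - 1)) + ((a - a') * b + a' * (b - b')) := by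
      field_simp; ring
    rw [e]
    refine v.map_add_lt ?_ (v.map_add_lt ?_ ?_)
    · rw [Valuation.map_neg, map_mul, u3, one_mul]; exact h6
    · rw [map_mul, u2, mul_one]; exact h2
    · rw [map_mul, h3, one_mul]; exact h2'

end curve

end Fermat.Agent.N4
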