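import Mathlib
import Fermat.Agent.N4.FormalTors
import Fermat.Agent.H08.KummerRoot
import Fermat.Agent.H09.RootLemma

/-!
# A multiple of a torsion point which is closest to the boundary of the node
-/

set_option autoImplicit false

namespace Fermat.Agent.N4

open WeierstrassCurve WeierstrassCurve.Affine WeierstrassCurve.Affine.Point
open Fermat.Agent.H08 Fermat.Agent.H09

section

variable {G F : Type*} [AddCommGroup G] [Field F] {Γ₀ : Type*} [LinearOrderedCommGroupWithZero Γ₀]
  {t : G → F} {a b : F} {v : Valuation F Γ₀} {p : ℕ}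

lemma kummerSystem_restrict (K : KummerSystem t a b) (H : AddSubgroup G) :
    KummerSystem (fun Q : H => t Q) a b where
  eq_iff P Q hP hQ := by
    have h := K.eq_iff (P : G) (Q : G) (fun h => hP (by exact_mod_cast h))
      (fun h => hQ (by exact_mod_cast h))
    rw [h]
    constructor
    · rintro (h | h)
      · exact Or.inl (Subtype.ext h)
      · exact Or.inr (Subtype.ext h)
    · rintro (h | h)
      · exact Or.inl (congrArg _ h)
      · exact Or.inr (by rw [h]; rfl)
  sum P Q hP hQ := by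
    exact K.sum (P : G) (Q : G) (fun h => hP (by exact_mod_cast h)) (fun h => hQ (by exact_mod_cast h))
  prod P Q hP hQ := by
    exact K.prod (P : G) (Q : G) (fun h => hP (by exact_mod_cast h)) (fun h => hQ (by exact_mod_cast h))
  double P hP hPP := by
    refine K.double (P : G) (fun h => hP (by exact_mod_cast h)) (fun h => hPP ?_)
    exact Subtype.ext h

/-- Some multiple of a singular torsion point has the smallest possible valuation. -/
theorem exists_min (H : KHyp t a b v p) {w : F → ℝ} (hw : IsLogVal v w) {P : G} (hP : P ≠ 0)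
    (hpP : p • P = 0) (h1 : v (t P) < 1) :
    ∃ m : ℕ, ¬ p ∣ m ∧ p * w (t (m • P)) = 2 * w b := by
  have hp5 := H.hp5
  have hx0 := H.t_ne_zero hP hpP
  have hbx := H.val_b_lt hP hpP
  set r : ℕ → ℝ := fun m => if m = 0 then 0 else w (t (m • P)) with hr
  have hr0 : r 0 = 0 := by simp [hr]
  have hrm : ∀ m, 1 ≤ m → r m = w (t (m • P)) := by
    intro m hm; simp [hr, show m ≠ 0 by omega]
  have hr1 : r 1 = w (t P) := by rw [hrm 1 le_rfl, one_nsmul]
  have hN : 0 < w b := (hw.pos_iff H.b0).mp H.vb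
  have hneg : ∀ Q : G, Q ≠ 0 → t (-Q) = t Q := by
    intro Q hQ
    exact (H.K.eq_iff _ _ (neg_ne_zero.mpr hQ) hQ).mpr (Or.inr rfl)
  have A1 : ∀ m ≤ p - 1, 0 ≤ r m := by
    intro m hm
    by_cases hm0 : m = 0
    · rw [hm0, hr0]
    · rw [hrm m (by omega)]
      have hQ := H.nsmul_ne_zero' hP hpP (m := m) (by omega) hm
      exact (hw.nonneg_iff (H.t_ne_zero hQ (KHyp.torsion_nsmul hpP _))).mp
        (H.int _ hQ (KHyp.torsion_nsmul hpP _))
  have A2 : ∀ m ≤ p - 1, r m ≤ w b := by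
    intro m hm
    by_cases hm0 : m = 0
    · rw [hm0, hr0]; exact hN.le
    · rw [hrm m (by omega)]
      have hQ := H.nsmul_ne_zero' hP hpP (m := m) (by omega) hm
      exact ((hw.lt_iff _ _ H.b0 (H.t_ne_zero hQ (KHyp.torsion_nsmul hpP _))).mp
        (H.val_b_lt hQ (KHyp.torsion_nsmul hpP _))).le
  have A3 : ∀ m, m + 2 ≤ p - 1 → r (m + 2) + r m
      = |r (m + 1) - r 1| + min (r (m + 1) + r 1) (2 * w b - (r (m + 1) + r 1)) := by
    intro m hm
    by_cases hm0 : m = 0
    · subst hm0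
      rw [hr0, hrm 2 (by omega), H.recursion_start hw hP hpP h1, hr1]
      simp
    · rw [hrm (m + 2) (by omega), hrm m (by omega), hrm (m + 1) (by omega), hr1]
      exact H.recursion hw hP hpP h1 (by omega) hm
  have hrec := tent_recursion hN hr0 A1 A2 A3
  obtain ⟨k₁, hk₁⟩ := H.val_singular hw hP hpP h1
  have hr1pos : 0 < w (t P) := (hw.pos_iff hx0).mp h1
  have hr1lt : w (t P) < w b := (hw.lt_iff _ _ H.b0 hx0).mp hbx
  have hppos : (0 : ℝ) < p := by have := H.hp.pos; exact_mod_cast this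
  have hk1 : 0 < k₁ := by
    by_contra hc; push Not at hc
    have hc' : (k₁ : ℝ) ≤ 0 := by exact_mod_cast hc
    have : (0 : ℝ) < 2 * k₁ * w b := by rw [← hk₁]; positivity
    nlinarith
  have hk2 : k₁ < p := by
    by_contra hc; push Not at hc
    have hc' : (p : ℝ) ≤ k₁ := by exact_mod_cast hc
    have h3 : 2 * (k₁ : ℝ) * w b < p * w b := by rw [← hk₁]; exact mul_lt_mul_of_pos_left hr1lt hppos
    have h4 : 2 * (k₁ : ℝ) < p := lt_of_mul_lt_mul_right h3 hN.le
    linarith
  -- an inverse of `k₁` modulo `p`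
  obtain ⟨n₁, rfl⟩ : ∃ n₁ : ℕ, k₁ = n₁ := ⟨k₁.toNat, (Int.toNat_of_nonneg hk1.le).symm⟩
  have hn1 : ¬ p ∣ n₁ := by
    intro hd
    have h3 := Nat.le_of_dvd (by exact_mod_cast hk1) hd
    have h4 : n₁ < p := by exact_mod_cast hk2
    omega
  obtain ⟨m, hm1, hm2, j, hj⟩ : ∃ m : ℕ, m ≤ p - 1 ∧ ¬ p ∣ m ∧ ∃ j : ℕ, m * n₁ = 1 + p * j := by
    have := Fact.mk H.hp
    have hu : (n₁ : ZMod p) ≠ 0 := by
      rw [Ne, ZMod.natCast_eq_zero_iff]; exact hn1
    set m := ((n₁ : ZMod p)⁻¹).val with hm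
    have hm' : (m : ZMod p) = (n₁ : ZMod p)⁻¹ := ZMod.natCast_zmod_val _
    have hlt : m < p := ZMod.val_lt _
    have e1 : ((m * n₁ : ℕ) : ZMod p) = ((1 : ℕ) : ZMod p) := by
      push_cast; rw [hm', inv_mul_cancel₀ hu]
    have hmod : 1 ≡ m * n₁ [MOD p] := ((ZMod.natCast_eq_natCast_iff _ _ _).mp e1).symm
    have hpos : 1 ≤ m * n₁ := by
      have : m ≠ 0 := by
        intro h0
        rw [h0] at hm'
        simp only [Nat.cast_zero] at hm'
        exact inv_ne_zero hu hm'.symm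
      have h5 : 0 < n₁ := by exact_mod_cast hk1
      exact Nat.mul_pos (Nat.pos_of_ne_zero this) h5
    obtain ⟨j, hj⟩ := (Nat.modEq_iff_dvd' hpos).mp hmod
    refine ⟨m, by omega, ?_, j, by omega⟩
    intro hd
    have h6 := Nat.eq_zero_of_dvd_of_lt hd hlt
    rw [h6] at hm'
    simp only [Nat.cast_zero] at hm'
    exact inv_ne_zero hu hm'.symm
  refine ⟨m, hm2, ?_⟩
  have hm0 : m ≠ 0 := by rintro rfl; exact hm2 (dvd_zero _)
  rw [← hrm m (by omega)]
  obtain ⟨k, hk⟩ := hrec m hm1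
  have hj' : (m : ℝ) * n₁ = 1 + p * j := by exact_mod_cast hj
  have e1 : (m : ℝ) * r 1 = 2 * w b / p + 2 * j * w b := by
    rw [hr1]
    have e2 : w (t P) = 2 * n₁ * w b / p := by
      rw [eq_div_iff hppos.ne', mul_comm]; exact_mod_cast hk₁
    rw [e2]
    field_simp
    linear_combination hj'
  have hle : 2 * w b / p ≤ w b := by
    rw [div_le_iff₀ hppos]
    have : (2 : ℝ) ≤ p := by exact_mod_cast H.hp.two_le
    nlinarith
  have h0 : 0 ≤ 2 * w b / p := by positivity
  have := tent_unique hN (x := 2 * w b / p) (y := r m) (z := 2 * w b / p) (j := k - j)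
    (abs_of_nonneg h0).symm hle (by rw [hk, e1]; congr 1; push_cast; ring) (A2 m hm1)
  rw [← this]
  field_simp

end

end Fermat.Agent.N4
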