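import Mathlib
import Fermat.Agent.N4.TentMin

/-!
# Singular `p`-torsion points for multiplicative reduction at `p`
-/

set_option autoImplicit false

namespace Fermat.Agent.N4

open WeierstrassCurve WeierstrassCurve.Affine WeierstrassCurve.Affine.Point
open Fermat.Agent.H08 Fermat.Agent.H09

section

lemma kummerSystem_comap {G H F : Type*} [AddCommGroup G] [AddCommGroup H] [Field F]
    {t : G → F} {a b : F} (K : KummerSystem t a b) (f : H →+ G) (hf : Function.Injective f) :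
    KummerSystem (fun Q : H => t (f Q)) a b where
  eq_iff P Q hP hQ := by
    rw [K.eq_iff (f P) (f Q) (fun h => hP ((map_eq_zero_iff f hf).mp h))
      (fun h => hQ ((map_eq_zero_iff f hf).mp h)), ← map_neg, hf.eq_iff, hf.eq_iff]
  sum P Q hP hQ := by
    simp only [map_add, map_sub]
    exact K.sum (f P) (f Q) (fun h => hP ((map_eq_zero_iff f hf).mp h))
      (fun h => hQ ((map_eq_zero_iff f hf).mp h))
  prod P Q hP hQ := by
    simp only [map_add, map_sub]
    exact K.prod (f P) (f Q) (fun h => hP ((map_eq_zero_iff f hf).mp h))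
      (fun h => hQ ((map_eq_zero_iff f hf).mp h))
  double P hP hPP := by
    simp only [map_add]
    refine K.double (f P) (fun h => hP ((map_eq_zero_iff f hf).mp h)) (fun h => hPP ?_)
    rw [← map_add] at h
    exact (map_eq_zero_iff f hf).mp h

variable {F : Type*} [Field F] [DecidableEq F] {Γ₀ : Type*} [LinearOrderedCommGroupWithZero Γ₀]
  {v : Valuation F Γ₀} {W : WeierstrassCurve.Affine F} {r t α β : F} {p : ℕ} {ζ : F}

lemma shiftHom_injective : Function.Injective (shiftHom W r t) := by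
  rw [injective_iff_map_eq_zero]
  intro P hP
  exact shiftPt_eq_zero.mp hP

/-- Points of `E₀[p]` are in the kernel of reduction. -/
theorem inE1_of_nodeE0 (R : ResP v p ζ) (h : NodeData v W r t α β) {P : W.Point}
    (hP : NodeE0 v r t P) (hpP : p • P = 0) : InE1 v P := by
  by_cases h0 : P = 0
  · exact Or.inl h0
  have h1 := uFun_nsmul h.slopes h.int_shift h.a₆ h.b₄ h.b₆ h.b₈ (P := shiftPt W r t P) hP p
  have h2 : p • shiftPt W r t P = 0 := by
    have := map_nsmul (shiftHom W r t) p P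
    rw [hpP, _root_.map_zero] at this
    exact this.symm
  rw [h2, uFun_zero, ← neg_sub, Valuation.map_neg] at h1
  have h3 : v (uFun α β (shiftPt W r t P) - 1) < 1 := by
    by_contra hcon
    push Not at hcon
    have h4 := val_pow_sub_one_of_gt (v := v) R.hp R.hζ (R.lam_lt.trans_le hcon)
    rw [h4] at h1
    exact absurd h1 (not_lt.mpr (one_le_pow₀ hcon))
  have h5 := inE1_of_uFun h.slopes h.a₆ hP h3
  right
  have h6 : 1 < v (px (shiftPt W r t P)) := h5.resolve_left (shiftPt_ne_zero h0)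
  rw [px_shiftPt h0] at h6
  exact one_lt_of_one_lt_sub h h6

lemma not_nodeE0_nsmul (hp : p.Prime) (h : NodeData v W r t α β) {P : W.Point}
    (hP : ¬ NodeE0 v r t P) (hpP : p • P = 0) {m : ℕ} (hm : ¬ p ∣ m) :
    ¬ NodeE0 v r t (m • P) := by
  intro hE
  apply hP
  obtain ⟨k, -, hk⟩ := Nat.exists_mul_mod_eq_one_of_coprime
    (((Nat.Prime.coprime_iff_not_dvd hp).mpr hm).symm) hp.one_lt
  have e : k • (m • P) = P := by
    rw [← mul_smul, mul_comm, ← Nat.div_add_mod (m * k) p, hk, add_smul, one_smul, mul_comm p,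
      mul_smul, hpP, smul_zero, zero_add]
  rw [← e]
  exact NodeE0.nsmul h hE k

/-- Some multiple of a singular torsion point has `v(x - r)^p = v(δ)`. -/
theorem exists_multiple [IsAlgClosed F] (R : ResP v p ζ) (hp5 : 5 ≤ p)
    (h : NodeData v W r t α β) {w : F → ℝ} (hw : IsLogVal v w) {P : W.Point}
    (hP : ¬ NodeE0 v r t P) (hpP : p • P = 0) :
    ∃ m : ℕ, ¬ p ∣ m ∧ v (px (m • P) - r) ^ p = v (shiftCurve W r t).a₆ := by
  have hP0 : P ≠ 0 := by rintro rfl; exact hP NodeE0.zero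
  set W' := shiftCurve W r t with hW'
  have hv2 : v (2 : F) = 1 := by
    have := R.cop (n := 2) (fun hd => by
      have := (Nat.prime_dvd_prime_iff_eq R.hp Nat.prime_two).mp hd
      exact R.hp2 this)
    exact_mod_cast this
  have h20 : (2 : F) ≠ 0 := by
    intro h0; rw [h0, _root_.map_zero] at hv2; exact zero_ne_one hv2
  have hv4 : v (4 : F) = 1 := by
    have : (4 : F) = 2 * 2 := by norm_num
    rw [this, map_mul, hv2, one_mul]
  have hv64 : v (64 : F) = 1 := by
    have : (64 : F) = 4 * 4 * 4 := by norm_num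
    rw [this, map_mul, map_mul, hv4, one_mul, one_mul]
  have a3 : W'.a₃ = 0 := h.slopes.a₃
  have a4 : W'.a₄ = 0 := h.slopes.a₄
  have b4 : W'.b₄ = 0 := by rw [WeierstrassCurve.b₄, a3, a4]; ring
  have b6 : W'.b₆ = 4 * W'.a₆ := by rw [WeierstrassCurve.b₆, a3]; ring
  have b2 : W'.b₂ = (β - α) ^ 2 := by
    rw [WeierstrassCurve.b₂]
    linear_combination (W'.a₁ - α - β) * h.slopes.sum + 4 * h.slopes.prod
  have vb2 : v W'.b₂ = 1 := by rw [b2, map_pow, h.slopes.diff, one_pow]
  obtain ⟨e, he, ve⟩ : ∃ e : F, e ^ 3 + W'.b₂ * e ^ 2 + 8 * W'.b₄ * e + 16 * W'.b₆ = 0 ∧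
      v e < 1 := by
    have hc : (Cubic.toPoly ⟨1, W'.b₂, 8 * W'.b₄, 16 * W'.b₆⟩).coeff 2 = W'.b₂ :=
      Cubic.coeff_eq_b
    have hd : (Cubic.toPoly ⟨1, W'.b₂, 8 * W'.b₄, 16 * W'.b₆⟩).coeff 0 = 16 * W'.b₆ :=
      Cubic.coeff_eq_d
    obtain ⟨e, he, ve⟩ := exists_root_lt_one v (f := Cubic.toPoly ⟨1, W'.b₂, 8 * W'.b₄, 16 * W'.b₆⟩)
      (j := 2) (by rw [hc]; exact vb2)
      (by rw [hd]; exact v_mul_lt_one_right (v_ofNat_le_one v 16) h.b₆)
    refine ⟨e, ?_, ve⟩
    rw [Polynomial.IsRoot.def, Cubic.toPoly] at he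
    simp only [Polynomial.eval_add, Polynomial.eval_mul, Polynomial.eval_C, Polynomial.eval_pow,
      Polynomial.eval_X] at he
    rw [one_mul] at he
    exact he
  have he0 : e ^ 2 * (e + W'.b₂) = -(64 * W'.a₆) := by
    rw [b4, b6] at he
    linear_combination he
  have veb : v (e + W'.b₂) = 1 := by
    rw [Valuation.map_add_eq_of_lt_right, vb2]
    rw [vb2]; exact ve
  have ve2 : v e ^ 2 = v W'.a₆ := by
    have := congrArg v he0
    rwa [map_mul, map_pow, veb, mul_one, Valuation.map_neg, map_mul, hv64, one_mul] at this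
  have va6 : v W'.a₆ ≠ 0 := (Valuation.ne_zero_iff v).mpr h.slopes.a₆
  have e0 : e ≠ 0 := by
    rintro rfl
    rw [_root_.map_zero, zero_pow two_ne_zero] at ve2
    exact va6 ve2.symm
  have eb : 3 * e ^ 2 + 2 * W'.b₂ * e + 8 * W'.b₄ = e * (3 * e + 2 * W'.b₂) := by
    rw [b4]; ring
  have v3b : v (3 * e + 2 * W'.b₂) = 1 := by
    have : v (2 * W'.b₂) = 1 := by rw [map_mul, hv2, vb2, one_mul]
    rw [Valuation.map_add_eq_of_lt_right, this]
    rw [this]; exact v_mul_lt_one_right (v_ofNat_le_one v 3) ve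
  have vbe : v (3 * e ^ 2 + 2 * W'.b₂ * e + 8 * W'.b₄) = v e := by
    rw [eb, map_mul, v3b, mul_one]
  have hb0 : 3 * e ^ 2 + 2 * W'.b₂ * e + 8 * W'.b₄ ≠ 0 := by
    rw [← Valuation.ne_zero_iff v, vbe, Valuation.ne_zero_iff]; exact e0
  set G := AddSubgroup.zmultiples P
  set f : G →+ W'.Point := (shiftHom W r t).comp G.subtype with hf
  have hfinj : Function.Injective f := by
    rw [hf, AddMonoidHom.coe_comp]
    exact shiftHom_injective.comp Subtype.val_injective
  have hsing : ∀ Q : G, Q ≠ 0 → v (4 * px (f Q) - e) < 1 := by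
    rintro ⟨Q, hQ⟩ hQ0
    have hQ0' : Q ≠ 0 := fun h0 => hQ0 (Subtype.ext h0)
    obtain ⟨n, hn⟩ := AddSubgroup.mem_zmultiples_iff.mp hQ
    have hfin : IsOfFinAddOrder P := isOfFinAddOrder_iff_nsmul_eq_zero.mpr ⟨p, R.hp.pos, hpP⟩
    obtain ⟨m, hm⟩ : ∃ m : ℕ, m • P = Q := by
      have := (hfin.mem_multiples_iff_mem_zmultiples (y := Q)).mpr hQ
      exact AddSubmonoid.mem_multiples_iff _ _ |>.mp this
    have hpm : ¬ p ∣ m := by
      rintro ⟨c, rfl⟩
      apply hQ0'
      rw [← hm, mul_comm, mul_smul, hpP, smul_zero]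
    have h1 := not_nodeE0_nsmul R.hp h hP hpP hpm
    rw [hm, nodeE0_iff hQ0', not_le, ← px_shiftPt (t := t) hQ0'] at h1
    exact v_sub_lt_one (v_mul_lt_one_right (v_ofNat_le_one v 4) h1) ve
  have H : KHyp (fun Q : G => 4 * px (f Q) - e) (3 * e + W'.b₂)
      (3 * e ^ 2 + 2 * W'.b₂ * e + 8 * W'.b₄) v p :=
    { K := kummerSystem_comap (kummerSystem_of_root h20 he) f hfinj
      hp := R.hp
      hp5 := hp5
      v2 := hv2
      va := by
        rw [Valuation.map_add_eq_of_lt_right, vb2]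
        rw [vb2]; exact v_mul_lt_one_right (v_ofNat_le_one v 3) ve
      vb := by rw [vbe]; exact ve
      b0 := hb0
      int := fun Q hQ _ => (hsing Q hQ).le }
  set P₁ : G := ⟨P, AddSubgroup.mem_zmultiples P⟩
  have hP₁ : P₁ ≠ 0 := fun h0 => hP0 (congrArg Subtype.val h0)
  have hpP₁ : p • P₁ = 0 := Subtype.ext hpP
  obtain ⟨m, hm, hmin⟩ := exists_min H hw hP₁ hpP₁ (hsing P₁ hP₁)
  refine ⟨m, hm, ?_⟩
  have hmP0 : m • P ≠ 0 := by
    intro h0
    apply not_nodeE0_nsmul R.hp h hP hpP hm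
    rw [h0]; exact NodeE0.zero
  have ef : px (f (m • P₁)) = px (m • P) - r := by
    rw [← px_shiftPt (t := t) hmP0]; rfl
  simp only [ef] at hmin
  rw [(hw.eq_iff hb0 e0).mp vbe] at hmin
  have hwa : 2 * w e = w W'.a₆ := by
    have := (hw.eq_iff (pow_ne_zero 2 e0) h.slopes.a₆).mp (by rw [map_pow]; exact ve2)
    rw [hw.pow e0] at this
    exact_mod_cast this
  have hx0 : 4 * (px (m • P) - r) - e ≠ 0 := by
    have := H.t_ne_zero (P := m • P₁) (fun h0 => hmP0 (congrArg Subtype.val h0))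
      (KHyp.torsion_nsmul hpP₁ m)
    simp only [ef] at this
    exact this
  have hwepos : 0 < w e := (hw.pos_iff e0).mp ve
  have hlt : v e < v (4 * (px (m • P) - r) - e) := by
    rw [hw.lt_iff _ _ e0 hx0]
    have h5 : (5 : ℝ) ≤ p := by exact_mod_cast hp5
    by_contra hcon
    push Not at hcon
    nlinarith
  have hvx : v (px (m • P) - r) = v (4 * (px (m • P) - r) - e) := by
    have e1 : 4 * (px (m • P) - r) = (4 * (px (m • P) - r) - e) + e := by ring
    have e2 : v (4 * (px (m • P) - r)) = v (4 * (px (m • P) - r) - e) := by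
      conv_lhs => rw [e1]
      exact Valuation.map_add_eq_of_lt_left _ hlt
    rwa [map_mul, hv4, one_mul] at e2
  rw [hvx, ← map_pow]
  rw [hw.eq_iff (pow_ne_zero p hx0) h.slopes.a₆, hw.pow hx0, hmin, hwa]

end

end Fermat.Agent.N4
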