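import Mathlib
import Fermat.Agent.N4.Sing

/-!
# The Kummer cocycle of a singular `p`-torsion point
-/

set_option autoImplicit false

namespace Fermat.Agent.N4

open WeierstrassCurve WeierstrassCurve.Affine WeierstrassCurve.Affine.Point
open Fermat.Agent.H08 Fermat.Agent.H09

section

variable {F : Type*} [Field F] [DecidableEq F] {Γ₀ : Type*} [LinearOrderedCommGroupWithZero Γ₀]
  {v : Valuation F Γ₀} {W : WeierstrassCurve.Affine F} {r t α β : F} {p : ℕ} {ζ : F}

lemma chi_ne_zero (R : ResP v p ζ) (h : NodeData v W r t α β)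
    (hδ : v (shiftCurve W r t).a₆ ≤ v (p : F)) {T : W.Point}
    (hT1 : InE1 v T) (hpT : p • T = 0) : chi v p ζ W r t α β T ≠ 0 := by
  obtain ⟨h1, -, -⟩ := chi_spec R h hδ hT1 hpT
  intro h0
  rw [h0, zero_pow R.hp.ne_zero] at h1
  exact zero_ne_one h1

lemma chi_inj (R : ResP v p ζ) (h : NodeData v W r t α β)
    (hδ : v (shiftCurve W r t).a₆ ≤ v (p : F)) {T T' : W.Point}
    (hT1 : InE1 v T) (hpT : p • T = 0) (hT1' : InE1 v T') (hpT' : p • T' = 0)
    (he : chi v p ζ W r t α β T = chi v p ζ W r t α β T') : T = T' := by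
  by_contra hne
  have h1 : InE1 v (T - T') := InE1.sub h.int hT1 hT1'
  have h2 : p • (T - T') = 0 := by rw [smul_sub, hpT, hpT', sub_zero]
  apply chi_ne_one R h hδ (sub_ne_zero.mpr hne) h1 h2
  have h3 := chi_add R h hδ h1 h2 hT1' hpT'
  rw [sub_add_cancel, he] at h3
  exact mul_right_cancel₀ (chi_ne_zero R h hδ hT1' hpT') (by rw [one_mul, ← h3])

end

section galois

variable {L : Type*} [Field L] [DecidableEq L] [CharZero L] [Algebra.IsAlgebraic ℚ L]
  {W₀ : WeierstrassCurve.Affine ℚ} {A : ValuationSubring L} {r t α β : L} {p : ℕ} {ζ : L}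

/-- equivariance of `chi` -/
theorem chi_smul (R : ResP A.valuation p ζ) (h : NodeData A.valuation (W₀⁄L) r t α β)
    (hδ : A.valuation (shiftCurve (W₀⁄L) r t).a₆ ≤ A.valuation (p : L)) {σ : L ≃ₐ[ℚ] L}
    (hσ : σ ∈ A.inertiaSubgroupIn ℚ) {T : (W₀⁄L).Point} (hT1 : InE1 A.valuation T)
    (hpT : p • T = 0) :
    chi A.valuation p ζ (W₀⁄L) r t α β (σ • T) = σ (chi A.valuation p ζ (W₀⁄L) r t α β T) := by
  obtain ⟨h1, h2, -⟩ := chi_spec R h hδ hT1 hpT
  apply chi_eq R
  · rw [← map_pow, h1, map_one]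
  · rw [uu_smul hσ h, ← map_sub, val_apply_eq (smul_eq_of_inertia hσ)]
    exact h2

/-- Data at a place of multiplicative reduction. -/
structure PeuData (W₀ : WeierstrassCurve.Affine ℚ) (A : ValuationSubring L) (r t α β : L)
    (p : ℕ) (ζ : L) (k : ℕ) : Prop where
  R : ResP A.valuation p ζ
  hp5 : 5 ≤ p
  h : NodeData A.valuation (W₀⁄L) r t α β
  hk : 1 ≤ k
  hδ : A.valuation (shiftCurve (W₀⁄L) r t).a₆ = A.valuation (p : L) ^ (p * k)

namespace PeuData

variable {k : ℕ}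

omit [DecidableEq L] [Algebra.IsAlgebraic ℚ L] in
lemma le (D : PeuData W₀ A r t α β p ζ k) :
    A.valuation (shiftCurve (W₀⁄L) r t).a₆ ≤ A.valuation (p : L) := by
  rw [D.hδ]
  calc A.valuation (p : L) ^ (p * k) ≤ A.valuation (p : L) ^ 1 :=
        pow_le_pow_of_le_one zero_le D.R.lt.le (Nat.mul_pos D.R.hp.pos D.hk)
    _ = _ := pow_one _

/-- `σ P - P ∈ E₁[p]` for inertia -/
theorem smul_sub (D : PeuData W₀ A r t α β p ζ k) {σ : L ≃ₐ[ℚ] L}
    (hσ : σ ∈ A.inertiaSubgroupIn ℚ) {P : (W₀⁄L).Point} (hP : p • P = 0) :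
    InE1 A.valuation (σ • P - P) ∧ p • (σ • P - P) = 0 := by
  have h1 : p • (σ • P - P) = 0 := by
    have e : p • (σ • P) = σ • (p • P) := by
      rw [← natCast_zsmul, ← natCast_zsmul, algEquiv_smul_zsmul]
    rw [_root_.smul_sub, e, hP, smul_zero_pt, sub_zero]
  exact ⟨inE1_of_nodeE0 D.R D.h (nodeE0_smul_sub hσ D.h P) h1, h1⟩

/-- The basic estimate. -/
theorem estimate (D : PeuData W₀ A r t α β p ζ k) {x : (W₀⁄L).Point} (hx : p • x = 0)
    (hxE : ¬ NodeE0 A.valuation r t x)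
    (hz : A.valuation (px x - r) ^ p = A.valuation (shiftCurve (W₀⁄L) r t).a₆)
    {σ : L ≃ₐ[ℚ] L} (hσ : σ ∈ A.inertiaSubgroupIn ℚ) :
    A.valuation (σ (uu (W₀⁄L) r t α β x) / (uu (W₀⁄L) r t α β x *
      chi A.valuation p ζ (W₀⁄L) r t α β (σ • x - x)) - 1) ≤ A.valuation (p : L) ^ 2 := by
  have R := D.R
  have hp5 := D.hp5
  have hx0 : x ≠ 0 := by rintro rfl; exact hxE NodeE0.zero
  have hzeq : A.valuation (px x - r) = A.valuation (p : L) ^ k := by
    rw [D.hδ, mul_comm, pow_mul] at hz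
    exact H09.pow_inj R.hp.ne_zero hz
  have hppos := R.p_pos
  have hz1 : A.valuation (px x - r) < 1 := by
    rw [nodeE0_iff hx0, not_le] at hxE; exact hxE
  have hzpos : 0 < A.valuation (px x - r) := by rw [hzeq]; exact pow_pos hppos k
  have hz6 : A.valuation (shiftCurve (W₀⁄L) r t).a₆ < A.valuation (px x - r) ^ 3 := by
    rw [← hz]
    exact pow_lt_pow_right_of_lt_one₀ hzpos hz1 (by omega)
  have hzp : A.valuation (px x - r) ≤ A.valuation (p : L) := by
    rw [hzeq]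
    calc A.valuation (p : L) ^ k ≤ A.valuation (p : L) ^ 1 :=
          pow_le_pow_of_le_one zero_le R.lt.le D.hk
      _ = _ := pow_one _
  have hratio : A.valuation (shiftCurve (W₀⁄L) r t).a₆ / A.valuation (px x - r) ^ 3 ≤
      A.valuation (p : L) ^ 2 := by
    rw [← hz, div_le_iff₀ (pow_pos hzpos 3)]
    calc A.valuation (px x - r) ^ p ≤ A.valuation (px x - r) ^ (2 + 3) :=
          pow_le_pow_of_le_one zero_le hz1.le (by omega)
      _ = A.valuation (px x - r) ^ 2 * A.valuation (px x - r) ^ 3 := pow_add _ _ _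
      _ ≤ _ := mul_le_mul' (pow_le_pow_left₀ zero_le hzp 2) le_rfl
  have hσx0 := smul_ne_zero' σ hx0
  obtain ⟨hr, -, -, -⟩ := node_fixed hσ D.h
  have hzσ : A.valuation (px (σ • x) - r) < 1 := by
    have e : px (σ • x) - r = σ (px x - r) := by rw [px_smul, map_sub, hr]
    rw [e, val_apply_eq (smul_eq_of_inertia hσ)]; exact hz1
  obtain ⟨hS1, hpS⟩ := D.smul_sub hσ hx
  set S := σ • x - x with hS
  have hxS : x + S = σ • x := by rw [hS]; abel
  have hux : uu (W₀⁄L) r t α β x ≠ 0 := by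
    rw [← Valuation.ne_zero_iff A.valuation]
    rcases val_uu_near D.h hx0 hz1 hz6 with h1 | h1
    · rw [h1]; exact hzpos.ne'
    · rw [h1]; exact inv_ne_zero hzpos.ne'
  rw [← uu_smul hσ D.h]
  by_cases hS0 : S = 0
  · have e : σ • x = x := by rw [← hxS, hS0, add_zero]
    rw [hS0, chi_zero R, mul_one, e, div_self hux, sub_self, _root_.map_zero]
    exact zero_le
  · have hSx : 1 < A.valuation (px S) := hS1.resolve_left hS0
    have h1 := uu_mul_near D.h hx0 hS0 (by rw [hxS]; exact hσx0) hz1 hz6 hSx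
      (by rw [hxS]; exact hzσ)
    rw [hxS] at h1
    have h1' := h1.trans hratio
    obtain ⟨c1, c2, c3⟩ := chi_spec R D.h D.le hS1 hpS
    have hc1 : A.valuation (chi A.valuation p ζ (W₀⁄L) r t α β S) = 1 := val_root R.hp.ne_zero c1
    have hc0 := chi_ne_zero R D.h D.le hS1 hpS
    have h2 : A.valuation (uu (W₀⁄L) r t α β S / chi A.valuation p ζ (W₀⁄L) r t α β S - 1) ≤
        A.valuation (p : L) ^ 2 := by
      rw [div_sub_one hc0, map_div₀, hc1, div_one]
      have h3 : A.valuation (p : L) ^ (p * k) ≤ A.valuation (p : L) ^ 2 * A.valuation (p : L) := by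
        rw [← pow_succ]
        apply pow_le_pow_of_le_one zero_le R.lt.le
        calc 2 + 1 ≤ p * 1 := by omega
          _ ≤ p * k := Nat.mul_le_mul_left p D.hk
      rw [D.hδ] at c3
      exact le_of_mul_le_mul_right (c3.trans h3) hppos
    have hp21 : A.valuation (p : L) ^ 2 < 1 := pow_lt_one₀ zero_le R.lt two_ne_zero
    have hσu : uu (W₀⁄L) r t α β (σ • x) ≠ 0 := by
      rw [uu_smul hσ D.h]; exact (map_ne_zero σ).mpr hux
    have huS : uu (W₀⁄L) r t α β S ≠ 0 := by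
      have := val_uu_E1 D.h hS1
      intro h0; rw [h0, _root_.map_zero] at this; exact zero_ne_one this
    have h4 : A.valuation ((uu (W₀⁄L) r t α β x * uu (W₀⁄L) r t α β S /
        uu (W₀⁄L) r t α β (σ • x))⁻¹ - 1) ≤ A.valuation (p : L) ^ 2 := by
      rw [val_inv_sub_one (h1'.trans_lt hp21)]; exact h1'
    have h5 := val_mul_sub_one_le hp21.le h4 h2
    have e : (uu (W₀⁄L) r t α β x * uu (W₀⁄L) r t α β S / uu (W₀⁄L) r t α β (σ • x))⁻¹ *
        (uu (W₀⁄L) r t α β S / chi A.valuation p ζ (W₀⁄L) r t α β S) =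
        uu (W₀⁄L) r t α β (σ • x) / (uu (W₀⁄L) r t α β x *
          chi A.valuation p ζ (W₀⁄L) r t α β S) := by
      field_simp
    rwa [e] at h5

omit [Algebra.IsAlgebraic ℚ L] in
theorem val_uu (D : PeuData W₀ A r t α β p ζ k) {x : (W₀⁄L).Point}
    (hxE : ¬ NodeE0 A.valuation r t x)
    (hz : A.valuation (px x - r) ^ p = A.valuation (shiftCurve (W₀⁄L) r t).a₆) :
    ∃ n : ℤ, A.valuation (uu (W₀⁄L) r t α β x) = A.valuation (p : L) ^ n := by
  have R := D.R
  have hp5 := D.hp5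
  have hx0 : x ≠ 0 := by rintro rfl; exact hxE NodeE0.zero
  have hzeq : A.valuation (px x - r) = A.valuation (p : L) ^ k := by
    rw [D.hδ, mul_comm, pow_mul] at hz
    exact H09.pow_inj R.hp.ne_zero hz
  have hz1 : A.valuation (px x - r) < 1 := by
    rw [nodeE0_iff hx0, not_le] at hxE; exact hxE
  have hzpos : 0 < A.valuation (px x - r) := by rw [hzeq]; exact pow_pos R.p_pos k
  have hz6 : A.valuation (shiftCurve (W₀⁄L) r t).a₆ < A.valuation (px x - r) ^ 3 := by
    rw [← hz]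
    exact pow_lt_pow_right_of_lt_one₀ hzpos hz1 (by omega)
  rcases val_uu_near D.h hx0 hz1 hz6 with h1 | h1
  · exact ⟨k, by rw [h1, hzeq, zpow_natCast]⟩
  · exact ⟨-k, by rw [h1, hzeq, zpow_neg, zpow_natCast]⟩

/-- **The Kummer generator attached to a suitable singular torsion point.** -/
theorem exists_kummer [IsAlgClosed L] (D : PeuData W₀ A r t α β p ζ k) {x : (W₀⁄L).Point}
    (hx : p • x = 0) (hxE : ¬ NodeE0 A.valuation r t x)
    (hz : A.valuation (px x - r) ^ p = A.valuation (shiftCurve (W₀⁄L) r t).a₆) :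
    ∃ u : L, u ≠ 0 ∧ (∀ σ ∈ A.inertiaSubgroupIn ℚ, σ (u ^ p) = u ^ p) ∧
      (∃ n : ℤ, A.valuation (u ^ p) = A.valuation (p : L) ^ ((p : ℤ) * n)) ∧
      ∀ σ ∈ A.inertiaSubgroupIn ℚ,
        σ u = chi A.valuation p ζ (W₀⁄L) r t α β (σ • x - x) * u := by
  classical
  have R := D.R
  have hp5 := D.hp5
  have hppos := R.p_pos
  set y := uu (W₀⁄L) r t α β x with hy
  obtain ⟨n, hn⟩ := D.val_uu hxE hz
  have hy0 : y ≠ 0 := by
    rw [← Valuation.ne_zero_iff A.valuation, hn]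
    exact zpow_ne_zero _ hppos.ne'
  set Ich := A.inertiaSubgroupIn ℚ with hI
  -- the orbit
  set O : Set (W₀⁄L).Point := {Q | ∃ σ ∈ Ich, Q = σ • x} with hO
  have hOmem : ∀ Q ∈ O, InE1 A.valuation (Q - x) ∧ p • (Q - x) = 0 := by
    rintro Q ⟨σ, hσ, rfl⟩
    exact D.smul_sub hσ hx
  have hmaps : Set.MapsTo (fun Q => chi A.valuation p ζ (W₀⁄L) r t α β (Q - x)) O
      (Polynomial.nthRootsFinset p (1 : L) : Set L) := by
    intro Q hQ
    rw [Finset.mem_coe, Polynomial.mem_nthRootsFinset R.hp.pos]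
    obtain ⟨h1, h2⟩ := hOmem Q hQ
    exact (chi_spec R D.h D.le h1 h2).1
  have hinj : Set.InjOn (fun Q => chi A.valuation p ζ (W₀⁄L) r t α β (Q - x)) O := by
    intro Q hQ Q' hQ' he
    obtain ⟨h1, h2⟩ := hOmem Q hQ
    obtain ⟨h1', h2'⟩ := hOmem Q' hQ'
    have := chi_inj R D.h D.le h1 h2 h1' h2' he
    exact sub_left_injective this
  have hOfin : O.Finite := Set.Finite.of_injOn hmaps hinj (Finset.finite_toSet _)
  set O' := hOfin.toFinset with hO'
  have hOcard : O'.card ≤ p := by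
    rw [← R.hζ.card_nthRootsFinset]
    apply Finset.card_le_card_of_injOn (fun Q => chi A.valuation p ζ (W₀⁄L) r t α β (Q - x))
    · intro Q hQ
      have hQ' : Q ∈ O := by
        have := hQ
        rw [hO', Set.Finite.coe_toFinset] at this
        exact this
      exact hmaps hQ'
    · rw [hO', Set.Finite.coe_toFinset]; exact hinj
  have hxO : x ∈ O := ⟨1, Subgroup.one_mem _, (one_smul (L ≃ₐ[ℚ] L) x).symm⟩
  have hOpos : 0 < O'.card := Finset.card_pos.mpr ⟨x, by rw [hO', Set.Finite.mem_toFinset]; exact hxO⟩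
  have hvcard : A.valuation (p : L) ≤ A.valuation (O'.card : L) := by
    rcases hOcard.lt_or_eq with h1 | h1
    · have h2 := R.cop (n := O'.card) (fun hd => by have := Nat.le_of_dvd hOpos hd; omega)
      rw [h2]
      exact R.lt.le
    · rw [h1]
  have hcard0 : (O'.card : L) ≠ 0 := by exact_mod_cast hOpos.ne'
  set Y : L := y ^ p with hY
  have hY0 : Y ≠ 0 := pow_ne_zero p hy0
  -- each conjugate is close to Y
  have hclose : ∀ Q ∈ O', A.valuation (uu (W₀⁄L) r t α β Q ^ p / Y - 1) ≤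
      A.valuation (p : L) ^ 3 := by
    intro Q hQ
    rw [hO', Set.Finite.mem_toFinset] at hQ
    obtain ⟨σ, hσ, rfl⟩ := hQ
    have h1 := D.estimate hx hxE hz hσ
    have hp2 : A.valuation (p : L) ^ 2 ≤ A.valuation (p : L) := by
      calc A.valuation (p : L) ^ 2 ≤ A.valuation (p : L) ^ 1 :=
            pow_le_pow_of_le_one zero_le R.lt.le (by norm_num)
        _ = _ := pow_one _
    have h2 := val_pow_prime_sub_one_le R.lt (h1.trans hp2)
    obtain ⟨hS1, hpS⟩ := D.smul_sub hσ hx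
    have c1 := (chi_spec R D.h D.le hS1 hpS).1
    rw [div_pow, mul_pow, c1, mul_one] at h2
    rw [uu_smul hσ D.h]
    refine h2.trans ?_
    rw [pow_succ' (A.valuation (p : L)) 2]
    exact mul_le_mul' le_rfl h1
  set c : L := (∑ Q ∈ O', uu (W₀⁄L) r t α β Q ^ p) / (O'.card : L) with hc
  have hcY : A.valuation (c / Y - 1) ≤ A.valuation (p : L) ^ 2 := by
    have e : c / Y - 1 = (∑ Q ∈ O', (uu (W₀⁄L) r t α β Q ^ p / Y - 1)) / (O'.card : L) := by
      rw [Finset.sum_sub_distrib, ← Finset.sum_div, Finset.sum_const, nsmul_eq_mul, mul_one, hc]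
      field_simp
    rw [e, map_div₀, div_le_iff₀ (lt_of_lt_of_le hppos hvcard)]
    have h1 : A.valuation (∑ Q ∈ O', (uu (W₀⁄L) r t α β Q ^ p / Y - 1)) ≤
        A.valuation (p : L) ^ 3 := A.valuation.map_sum_le hclose
    refine h1.trans ?_
    rw [pow_succ (A.valuation (p : L)) 2]
    exact mul_le_mul' le_rfl hvcard
  have hp21 : A.valuation (p : L) ^ 2 < 1 := pow_lt_one₀ zero_le R.lt two_ne_zero
  have hcinv : ∀ σ ∈ Ich, σ c = c := by
    intro σ hσ
    rw [hc, map_div₀, map_natCast, map_sum]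
    congr 1
    refine Finset.sum_nbij' (fun Q => σ • Q) (fun Q => σ⁻¹ • Q) ?_ ?_ ?_ ?_ ?_
    · intro Q hQ
      rw [hO', Set.Finite.mem_toFinset] at hQ ⊢
      obtain ⟨τ, hτ, rfl⟩ := hQ
      exact ⟨σ * τ, Subgroup.mul_mem _ hσ hτ,
        (mul_smul (α := L ≃ₐ[ℚ] L) (β := (W₀⁄L).Point) σ τ x).symm⟩
    · intro Q hQ
      rw [hO', Set.Finite.mem_toFinset] at hQ ⊢
      obtain ⟨τ, hτ, rfl⟩ := hQ
      exact ⟨σ⁻¹ * τ, Subgroup.mul_mem _ (Subgroup.inv_mem _ hσ) hτ,
        (mul_smul (α := L ≃ₐ[ℚ] L) (β := (W₀⁄L).Point) σ⁻¹ τ x).symm⟩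
    · intro Q _; exact inv_smul_smul (G := L ≃ₐ[ℚ] L) (α := (W₀⁄L).Point) σ Q
    · intro Q _; exact smul_inv_smul (G := L ≃ₐ[ℚ] L) (α := (W₀⁄L).Point) σ Q
    · intro Q _
      rw [uu_smul hσ D.h, map_pow]
  have hcv : A.valuation c = A.valuation Y := by
    have h1 := val_eq_one_of_sub_one_lt (hcY.trans_lt hp21)
    rw [map_div₀, div_eq_one_iff_eq ((Valuation.ne_zero_iff _).mpr hY0)] at h1
    exact h1
  obtain ⟨u₀, hu₀⟩ := IsAlgClosed.exists_pow_nat_eq c R.hp.pos
  have h1 : A.valuation ((u₀ / y) ^ p - 1) < A.valuation (p : L) * A.valuation (ζ - 1) := by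
    rw [div_pow, hu₀, ← hY]
    refine hcY.trans_lt ?_
    rw [sq]
    exact mul_lt_mul_of_pos_left R.p_lt_lam hppos
  obtain ⟨η, e1, e2, -⟩ := exists_close_root R.hp R.hζ h1
  have hη0 : η ≠ 0 := by
    rintro rfl
    rw [zero_pow R.hp.ne_zero] at e1
    exact zero_ne_one e1
  have hηv : A.valuation η = 1 := val_root R.hp.ne_zero e1
  set u := u₀ / η with hu
  have hup : u ^ p = c := by rw [hu, div_pow, e1, div_one, hu₀]
  have hc0 : c ≠ 0 := by
    rw [← Valuation.ne_zero_iff A.valuation, hcv, Valuation.ne_zero_iff]; exact hY0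
  have hu0 : u ≠ 0 := by
    intro h0
    rw [h0, zero_pow R.hp.ne_zero] at hup
    exact hc0 hup.symm
  have hg : A.valuation (u / y - 1) < A.valuation (ζ - 1) := by
    have e : u / y - 1 = (u₀ / y - η) / η := by rw [hu]; field_simp
    rw [e, map_div₀, hηv, div_one]; exact e2
  refine ⟨u, hu0, ?_, ⟨n, ?_⟩, ?_⟩
  · intro σ hσ; rw [hup]; exact hcinv σ hσ
  · rw [hup, hcv, hY, map_pow, hn, ← zpow_natCast, ← zpow_mul, mul_comm]
  · intro σ hσ
    obtain ⟨hS1, hpS⟩ := D.smul_sub hσ hx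
    obtain ⟨c1, -, -⟩ := chi_spec R D.h D.le hS1 hpS
    have hch0 := chi_ne_zero R D.h D.le hS1 hpS
    set ch := chi A.valuation p ζ (W₀⁄L) r t α β (σ • x - x) with hch
    have hchv : A.valuation ch = 1 := val_root R.hp.ne_zero c1
    have h2 := D.estimate hx hxE hz hσ
    rw [← hy, ← hch] at h2
    have h2' : A.valuation (σ y / (y * ch) - 1) < A.valuation (ζ - 1) := by
      refine h2.trans_lt (lt_of_le_of_lt ?_ R.p_lt_lam)
      calc A.valuation (p : L) ^ 2 ≤ A.valuation (p : L) ^ 1 :=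
            pow_le_pow_of_le_one zero_le R.lt.le (by norm_num)
        _ = _ := pow_one _
    have h3 : A.valuation (σ (u / y) - 1) < A.valuation (ζ - 1) := by
      have : σ (u / y) - 1 = σ (u / y - 1) := by rw [map_sub, map_one]
      rw [this, val_apply_eq (smul_eq_of_inertia hσ)]; exact hg
    have h4 : A.valuation ((u / y)⁻¹ - 1) < A.valuation (ζ - 1) := by
      rw [val_inv_sub_one (hg.trans R.lam_lt)]; exact hg
    have h5 := val_mul_sub_one_lt R.lam_lt.le (val_mul_sub_one_lt R.lam_lt.le h2' h3) h4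
    have hσy : σ y ≠ 0 := (map_ne_zero σ).mpr hy0
    have e : σ y / (y * ch) * σ (u / y) * (u / y)⁻¹ = (σ u / u) / ch := by
      rw [map_div₀]; field_simp
    rw [e] at h5
    have h6 : (σ u / u) ^ p = 1 := by
      rw [div_pow, ← map_pow, hup, hcinv σ hσ, div_self hc0]
    have h7 : σ u / u = ch := by
      apply root_eq_of_close (v := A.valuation) R.hp R.hζ h6 c1
      have e' : σ u / u - ch = (σ u / u / ch - 1) * ch := by field_simp
      rw [e', map_mul, hchv, mul_one]; exact h5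
    rw [← h7]; field_simp

end PeuData

end galois

end Fermat.Agent.N4
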