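import Mathlib
import Fermat.Agent.N4.Cocycle
import Fermat.Agent.H09.AtP
import Fermat.Agent.H09.Dichotomy
import Fermat.Agent.H12.InertiaVal

/-!
# The representation `E[p]` at a place over `p` of multiplicative reduction, `p ∣ v(Δ)`
-/

set_option autoImplicit false

namespace Fermat.Agent.N4

open WeierstrassCurve WeierstrassCurve.Affine WeierstrassCurve.Affine.Point
open Fermat.Agent.H08 Fermat.Agent.H09

section roots

open Polynomial

variable {F : Type*} [Field F] {Γ₀ : Type*} [LinearOrderedCommGroupWithZero Γ₀]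
  (v : Valuation F Γ₀)

lemma coeff_le_one_of_roots_le (s : Multiset F) (hs : ∀ y ∈ s, v y ≤ 1) (j : ℕ) :
    v ((s.map (fun a => X - C a)).prod.coeff j) ≤ 1 := by
  induction s using Multiset.induction_on generalizing j with
  | empty =>
    simp only [Multiset.map_zero, Multiset.prod_zero]
    rw [coeff_one]
    split_ifs <;> simp
  | cons y s ih =>
    have ih' := fun j => ih (fun a ha => hs a (Multiset.mem_cons_of_mem ha)) j
    have hy : v y ≤ 1 := hs y (Multiset.mem_cons_self _ _)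
    simp only [Multiset.map_cons, Multiset.prod_cons]
    rw [sub_mul, coeff_sub, coeff_C_mul]
    refine v_sub_le_one ?_ (v_mul_le_one hy (ih' j))
    cases j with
    | zero => rw [coeff_X_mul_zero, _root_.map_zero]; exact zero_le_one
    | succ j => rw [coeff_X_mul]; exact ih' j

/-- If the leading coefficient is in the maximal ideal but some coefficient is a unit then some
root is not integral. -/
theorem exists_root_gt_one [IsAlgClosed F] {f : F[X]} {j : ℕ} (hj : v (f.coeff j) = 1)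
    (h0 : v f.leadingCoeff < 1) : ∃ x : F, f.IsRoot x ∧ 1 < v x := by
  by_contra hcon
  push Not at hcon
  have e : f = C f.leadingCoeff * (f.roots.map (fun a => X - C a)).prod :=
    (IsAlgClosed.splits f).eq_prod_roots
  have h1 := coeff_le_one_of_roots_le v f.roots (fun y hy => hcon y (isRoot_of_mem_roots hy)) j
  have h2 : v (f.coeff j) < 1 := by
    rw [e, coeff_C_mul]
    exact v_mul_lt_one_left h0 h1
  rw [hj] at h2
  exact lt_irrefl _ h2

variable {v} [IsAlgClosed F] [DecidableEq F]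

/-- There are nontrivial `p`-torsion points in the kernel of reduction. -/
theorem exists_E1_tors {A : ValuationSubring F} {W : WeierstrassCurve.Affine F} {p : ℕ} {ζ : F}
    (R : ResP A.valuation p ζ) (hW : IsIntegralFor A.valuation W) (hΔ0 : W.Δ ≠ 0)
    (hc₄ : A.valuation W.c₄ = 1) :
    ∃ T : W.Point, T ≠ 0 ∧ InE1 A.valuation T ∧ p • T = 0 := by
  have hodd : Odd p := R.hp.odd_of_ne_two R.hp2
  have hv2 : A.valuation (2 : F) = 1 := by
    have := R.cop (n := 2) (fun hd =>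
      R.hp2 ((Nat.prime_dvd_prime_iff_eq R.hp Nat.prime_two).mp hd))
    exact_mod_cast this
  obtain ⟨-, j, hj⟩ := preΨ'_coeff_val hW hv2 (Or.inr hc₄) hodd
  have hp0 : (p : F) ≠ 0 := (Valuation.ne_zero_iff A.valuation).mp R.p_pos.ne'
  have hlead : A.valuation (W.preΨ' p).leadingCoeff < 1 := by
    rw [WeierstrassCurve.leadingCoeff_preΨ' _ hp0, if_neg (Nat.not_even_iff_odd.mpr hodd)]
    exact R.lt
  obtain ⟨x, hx, hxv⟩ := exists_root_gt_one A.valuation hj hlead
  obtain ⟨P, hP, hPx⟩ := exists_point_of_x hΔ0 x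
  refine ⟨P, hP, Or.inr ?_, ?_⟩
  · rw [← xc_eq_px, hPx]; exact hxv
  · rw [smul_eq_zero_iff_eval hP hodd, hPx]; exact hx

end roots

section galois

variable {L : Type*} [Field L] [DecidableEq L] [CharZero L] [Algebra.IsAlgebraic ℚ L]
  {W₀ : WeierstrassCurve.Affine ℚ} {A : ValuationSubring L} {r t α β : L} {p : ℕ} {ζ : L} {k : ℕ}

omit [Algebra.IsAlgebraic ℚ L] in
theorem chi_nsmul (D : PeuData W₀ A r t α β p ζ k) {T : (W₀⁄L).Point}
    (hT1 : InE1 A.valuation T) (hpT : p • T = 0) (m : ℕ) :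
    chi A.valuation p ζ (W₀⁄L) r t α β (m • T) = chi A.valuation p ζ (W₀⁄L) r t α β T ^ m := by
  induction m with
  | zero => rw [zero_smul, chi_zero D.R, pow_zero]
  | succ m ih =>
    have h1 : InE1 A.valuation (m • T) := (E1 A.valuation (W₀⁄L) D.h.int).nsmul_mem
      (show T ∈ E1 A.valuation (W₀⁄L) D.h.int from hT1) m
    have h2 : p • (m • T) = 0 := by rw [← mul_smul, mul_comm, mul_smul, hpT, smul_zero]
    rw [succ_nsmul, chi_add D.R D.h D.le h1 h2 hT1 hpT, ih, pow_succ]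

omit [Algebra.IsAlgebraic ℚ L] in
lemma smul_nsmul_pt (σ : L ≃ₐ[ℚ] L) (m : ℕ) (P : (W₀⁄L).Point) : σ • (m • P) = m • (σ • P) := by
  rw [← natCast_zsmul, ← natCast_zsmul, algEquiv_smul_zsmul]

omit [Algebra.IsAlgebraic ℚ L] in
lemma smul_add_pt (σ : L ≃ₐ[ℚ] L) (P Q : (W₀⁄L).Point) : σ • (P + Q) = σ • P + σ • Q :=
  smul_add (M := L ≃ₐ[ℚ] L) (A := (W₀⁄L).Point) σ P Q

/-- The action on `E₁[p]` is cyclotomic. -/
theorem smul_E1 (D : PeuData W₀ A r t α β p ζ k) {T : (W₀⁄L).Point}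
    (hT1 : InE1 A.valuation T) (hpT : p • T = 0) {σ : L ≃ₐ[ℚ] L}
    (hσ : σ ∈ A.inertiaSubgroupIn ℚ) {m : ℕ} (hm : ∀ η : L, η ^ p = 1 → σ η = η ^ m) :
    σ • T = m • T := by
  have h1 : InE1 A.valuation (m • T) := (E1 A.valuation (W₀⁄L) D.h.int).nsmul_mem
    (show T ∈ E1 A.valuation (W₀⁄L) D.h.int from hT1) m
  have h2 : p • (m • T) = 0 := by rw [← mul_smul, mul_comm, mul_smul, hpT, smul_zero]
  have h3 : p • (σ • T) = 0 := by rw [← smul_nsmul_pt, hpT, smul_zero_pt]
  apply chi_inj D.R D.h D.le (inE1_smul (smul_eq_of_inertia hσ) hT1) h3 h1 h2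
  rw [chi_smul D.R D.h D.le hσ hT1 hpT, chi_nsmul D hT1 hpT]
  exact hm _ (chi_spec D.R D.h D.le hT1 hpT).1

/-- The Kummer generator for an arbitrary torsion point. -/
theorem exists_kummer' [IsAlgClosed L] (D : PeuData W₀ A r t α β p ζ k) {w : L → ℝ}
    (hw : IsLogVal A.valuation w) {x : (W₀⁄L).Point} (hx : p • x = 0) :
    ∃ u : L, u ≠ 0 ∧ (∀ σ ∈ A.inertiaSubgroupIn ℚ, σ (u ^ p) = u ^ p) ∧
      (∃ n : ℤ, A.valuation (u ^ p) = A.valuation (p : L) ^ ((p : ℤ) * n)) ∧
      ∀ σ ∈ A.inertiaSubgroupIn ℚ,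
        σ u = chi A.valuation p ζ (W₀⁄L) r t α β (σ • x - x) * u := by
  have R := D.R
  by_cases hE : NodeE0 A.valuation r t x
  · have h1 := inE1_of_nodeE0 R D.h hE hx
    obtain ⟨c1, -, -⟩ := chi_spec R D.h D.le h1 hx
    refine ⟨chi A.valuation p ζ (W₀⁄L) r t α β x, chi_ne_zero R D.h D.le h1 hx, ?_, ⟨0, ?_⟩, ?_⟩
    · intro σ _; rw [c1, map_one]
    · rw [c1, map_one, mul_zero, zpow_zero]
    · intro σ hσ
      obtain ⟨hS1, hpS⟩ := D.smul_sub hσ hx
      rw [← chi_smul R D.h D.le hσ h1 hx, ← chi_add R D.h D.le hS1 hpS h1 hx, sub_add_cancel]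
  · obtain ⟨m, hm, hz⟩ := exists_multiple R D.hp5 D.h hw hE hx
    have hmx : p • (m • x) = 0 := by rw [← mul_smul, mul_comm, mul_smul, hx, smul_zero]
    obtain ⟨u, hu0, hu1, ⟨n, hn⟩, hu2⟩ := D.exists_kummer hmx (not_nodeE0_nsmul R.hp D.h hE hx hm) hz
    obtain ⟨m', -, hm'⟩ := Nat.exists_mul_mod_eq_one_of_coprime
      (((Nat.Prime.coprime_iff_not_dvd R.hp).mpr hm).symm) R.hp.one_lt
    have e : ∀ y : (W₀⁄L).Point, p • y = 0 → m' • (m • y) = y := by
      intro y hy
      rw [← mul_smul, mul_comm, ← Nat.div_add_mod (m * m') p, hm', add_smul, one_smul, mul_comm p,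
        mul_smul, hy, smul_zero, zero_add]
    refine ⟨u ^ m', pow_ne_zero _ hu0, ?_, ⟨n * m', ?_⟩, ?_⟩
    · intro σ hσ
      rw [← pow_mul, mul_comm, pow_mul, map_pow, hu1 σ hσ]
    · rw [← pow_mul, mul_comm, pow_mul, map_pow, hn, ← zpow_natCast, ← zpow_mul, mul_assoc]
    · intro σ hσ
      obtain ⟨hS1, hpS⟩ := D.smul_sub hσ hx
      obtain ⟨hS1', hpS'⟩ := D.smul_sub hσ hmx
      rw [map_pow, hu2 σ hσ, mul_pow, ← chi_nsmul D hS1' hpS']
      congr 2
      rw [smul_nsmul_pt, ← _root_.smul_sub, e _ hpS]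

end galois

section final

variable {L : Type*} [Field L] [DecidableEq L] [CharZero L] [Algebra.IsAlgebraic ℚ L]
  [IsAlgClosed L]
  {W₀ : WeierstrassCurve.Affine ℚ} {A : ValuationSubring L} {r t α β : L} {p : ℕ} {ζ : L} {k : ℕ}

/-- the kernel of reduction in `E[p]` -/
def E1p (D : PeuData W₀ A r t α β p ζ k) :
    AddSubgroup (Submodule.torsionBy ℤ (W₀⁄L).Point (p : ℤ)) where
  carrier := {y | InE1 A.valuation (y : (W₀⁄L).Point)}
  add_mem' := fun hP hQ => InE1.add D.h.int hP hQ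
  zero_mem' := InE1.zero
  neg_mem' := fun hP => InE1.neg hP

omit [Algebra.IsAlgebraic ℚ L] [IsAlgClosed L] in
lemma mem_E1p (D : PeuData W₀ A r t α β p ζ k)
    {y : Submodule.torsionBy ℤ (W₀⁄L).Point (p : ℤ)} :
    y ∈ E1p D ↔ InE1 A.valuation (y : (W₀⁄L).Point) := Iff.rfl

omit [Algebra.IsAlgebraic ℚ L] [IsAlgClosed L] in
lemma tors_coe (y : Submodule.torsionBy ℤ (W₀⁄L).Point (p : ℤ)) : p • (y : (W₀⁄L).Point) = 0 :=
  mem_torsion_iff.mp y.2

lemma card_E1p (D : PeuData W₀ A r t α β p ζ k) (hΔ0 : (W₀⁄L).Δ ≠ 0)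
    (hc₄ : A.valuation (W₀⁄L).c₄ = 1) : Nat.card (E1p D) = p := by
  classical
  have R := D.R
  set f : E1p D → (Polynomial.nthRootsFinset p (1 : L)) := fun y =>
    ⟨chi A.valuation p ζ (W₀⁄L) r t α β (y.1 : (W₀⁄L).Point), by
      rw [Polynomial.mem_nthRootsFinset R.hp.pos]
      exact (chi_spec R D.h D.le y.2 (tors_coe y.1)).1⟩ with hf
  have hinj : Function.Injective f := by
    intro y y' he
    apply Subtype.ext
    apply Subtype.ext
    exact chi_inj R D.h D.le y.2 (tors_coe y.1) y'.2 (tors_coe y'.1) (congrArg Subtype.val he)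
  have hfin : Finite (E1p D) := Finite.of_injective f hinj
  have h1 : Nat.card (E1p D) ≤ p := by
    have := Nat.card_le_card_of_injective f hinj
    rwa [Nat.card_eq_fintype_card (α := ↥(Polynomial.nthRootsFinset p (1 : L))), Fintype.card_coe,
      R.hζ.card_nthRootsFinset] at this
  obtain ⟨T, hT0, hT1, hpT⟩ := exists_E1_tors R D.h.int hΔ0 hc₄
  set T' : E1p D := ⟨⟨T, mem_torsion_iff.mpr hpT⟩, hT1⟩
  have hT' : T' ≠ 0 := fun h0 => hT0 (by
    have := congrArg (fun z : E1p D => ((z : Submodule.torsionBy ℤ (W₀⁄L).Point (p : ℤ)) :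
      (W₀⁄L).Point)) h0
    exact this)
  have hord : addOrderOf T' = p := by
    have hd : addOrderOf T' ∣ p := by
      apply addOrderOf_dvd_of_nsmul_eq_zero
      apply Subtype.ext
      apply Subtype.ext
      exact hpT
    rcases (Nat.dvd_prime R.hp).mp hd with h3 | h3
    · exact absurd (AddMonoid.addOrderOf_eq_one_iff.mp h3) hT'
    · exact h3
  have h2 : p ∣ Nat.card (E1p D) := by
    have := addOrderOf_dvd_natCard T'
    rwa [hord] at this
  exact le_antisymm h1 (Nat.le_of_dvd Nat.card_pos h2)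

omit [DecidableEq L] in
/-- Inertia acts nontrivially on `p`-th roots of unity. -/
theorem exists_inertia_ne (R : ResP A.valuation p ζ) (hA : A.LiesOverPrime p) :
    ∃ σ ∈ A.inertiaSubgroupIn ℚ, σ ζ ≠ ζ := by
  by_contra hcon
  push Not at hcon
  have : IsGalois ℚ L := { to_normal := { splits' := fun x => IsAlgClosed.splits _ } }
  obtain ⟨n, hn⟩ := Fermat.Agent.H12.exists_valuation_eq_zpow R.hp hA (ζ - 1)
    (sub_ne_zero.mpr (R.hζ.ne_one R.hp.one_lt)) (fun σ hσ => by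
      rw [map_sub, map_one, hcon σ hσ])
  have h1 := R.pow_eq
  rw [hn, ← zpow_natCast, ← zpow_mul] at h1
  have hp3 : 3 ≤ p := by
    have := R.hp.two_le
    have := R.hp2
    omega
  have h2 : n * ((p - 1 : ℕ) : ℤ) = 1 := by
    by_contra hne
    rcases lt_or_gt_of_ne hne with h | h
    · have := zpow_lt_zpow_right_of_lt_one₀ R.p_pos R.lt h
      rw [h1, zpow_one] at this
      exact lt_irrefl _ this
    · have := zpow_lt_zpow_right_of_lt_one₀ R.p_pos R.lt h
      rw [h1, zpow_one] at this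
      exact lt_irrefl _ this
  have h3 : ((p - 1 : ℕ) : ℤ) ∣ 1 := ⟨n, by rw [mul_comm]; exact h2.symm⟩
  have h4 : p - 1 ∣ 1 := by exact_mod_cast h3
  have := Nat.le_of_dvd one_pos h4
  omega

/-- Any line containing all `σ x - x` is `E₁[p]`. -/
theorem eq_E1p (D : PeuData W₀ A r t α β p ζ k) (hΔ0 : (W₀⁄L).Δ ≠ 0)
    (hc₄ : A.valuation (W₀⁄L).c₄ = 1) (hA : A.LiesOverPrime p)
    (S : AddSubgroup (Submodule.torsionBy ℤ (W₀⁄L).Point (p : ℤ))) (hS : Nat.card S = p)
    (hSI : ∀ σ ∈ A.inertiaSubgroupIn ℚ,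
      ∀ x : Submodule.torsionBy ℤ (W₀⁄L).Point (p : ℤ), σ • x - x ∈ S) : S = E1p D := by
  have R := D.R
  have hle : E1p D ≤ S := by
    intro T hT
    obtain ⟨σ, hσ, hne⟩ := exists_inertia_ne R hA
    have hz : (σ ζ) ^ p = 1 := by rw [← map_pow, R.hζ.pow_eq_one, map_one]
    have : NeZero p := ⟨R.hp.ne_zero⟩
    obtain ⟨m, hmlt, hm⟩ := R.hζ.eq_pow_of_pow_eq_one hz
    have hm' : ∀ η : L, η ^ p = 1 → σ η = η ^ m := by
      intro η hη
      obtain ⟨i, -, rfl⟩ := R.hζ.eq_pow_of_pow_eq_one hη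
      rw [map_pow, ← hm, ← pow_mul, ← pow_mul, mul_comm]
    have h1 := smul_E1 D hT (tors_coe T) hσ hm'
    have h2 := hSI σ hσ T
    have h3 : σ • T - T = ((m : ℤ) - 1) • T := by
      apply Subtype.ext
      change σ • (T : (W₀⁄L).Point) - T = ((m : ℤ) - 1) • (T : (W₀⁄L).Point)
      rw [h1, sub_smul, one_smul, natCast_zsmul]
    rw [h3] at h2
    have hcop : IsCoprime (p : ℤ) ((m : ℤ) - 1) := by
      rw [(Nat.prime_iff_prime_int.mp R.hp).irreducible.coprime_iff_not_dvd]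
      intro hd
      have h4 : (m : ℤ) - 1 = 0 := by
        apply Int.eq_zero_of_abs_lt_dvd hd
        rw [abs_lt]
        have := R.hp.two_le
        constructor <;> omega
      apply hne
      rw [← hm, show m = 1 by omega, pow_one]
    obtain ⟨a, b, hab⟩ := hcop
    have h5 : T = b • (((m : ℤ) - 1) • T) := by
      have h6 : ((p : ℤ)) • T = 0 := by
        apply Subtype.ext
        change (p : ℤ) • (T : (W₀⁄L).Point) = 0
        rw [natCast_zsmul]; exact tors_coe T
      calc T = (a * p + b * ((m : ℤ) - 1)) • T := by rw [hab, one_smul]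
        _ = b • (((m : ℤ) - 1) • T) := by rw [add_smul, mul_smul, h6, smul_zero, zero_add, mul_smul]
    rw [h5]
    exact S.zsmul_mem h2 b
  have hfin : Finite S := Nat.finite_of_card_ne_zero (by rw [hS]; exact R.hp.ne_zero)
  exact (AddSubgroup.eq_of_le_of_card_ge hle (by rw [hS, card_E1p D hΔ0 hc₄])).symm

end final

end Fermat.Agent.N4
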