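import Mathlib
import Fermat.Agent.N4.Main
import Fermat.Agent.H09.Frey

/-!
# (N4): the representation `E[p]` at `p` for multiplicative, peu ramifiée curves
-/

set_option autoImplicit false

namespace Fermat.Agent.N4

open WeierstrassCurve WeierstrassCurve.Affine WeierstrassCurve.Affine.Point
open Fermat.Agent.H08 Fermat.Agent.H09

section

variable {F : Type*} [Field F] {Γ₀ : Type*} [LinearOrderedCommGroupWithZero Γ₀]
  {v : Valuation F Γ₀} {W : WeierstrassCurve.Affine F} {r t α β : F}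

/-- `v(δ) = v(Δ)` -/
theorem val_a₆_eq_val_Δ (h : NodeData v W r t α β) : v (shiftCurve W r t).a₆ = v W.Δ := by
  have e : W.Δ = (shiftCurve W r t).Δ := by
    simp only [shiftCurve, WeierstrassCurve.Δ, b₂, b₄, b₆, b₈]; ring
  set W' := shiftCurve W r t
  have a3 : W'.a₃ = 0 := h.slopes.a₃
  have a4 : W'.a₄ = 0 := h.slopes.a₄
  have eb2 : W'.b₂ = (β - α) ^ 2 := by
    rw [WeierstrassCurve.b₂]
    linear_combination (W'.a₁ - α - β) * h.slopes.sum + 4 * h.slopes.prod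
  have e2 : W'.Δ = -(W'.a₆ * (W'.b₂ ^ 3 + 432 * W'.a₆)) := by
    rw [WeierstrassCurve.Δ, b₈, b₄, b₆, a3, a4, b₂]; ring
  have v2 : v (W'.b₂ ^ 3) = 1 := by rw [eb2, map_pow, map_pow, h.slopes.diff, one_pow, one_pow]
  have v3 : v (W'.b₂ ^ 3 + 432 * W'.a₆) = 1 := by
    rw [Valuation.map_add_eq_of_lt_left, v2]
    rw [v2]; exact v_mul_lt_one_right (v_ofNat_le_one v 432) h.a₆
  rw [e, e2, Valuation.map_neg, map_mul, v3, mul_one]

end

section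

variable {L : Type*} [Field L] [DecidableEq L] [CharZero L] [Algebra.IsAlgebraic ℚ L]
  [IsAlgClosed L]
  {W₀ : WeierstrassCurve.Affine ℚ} {W₁ : WeierstrassCurve ℤ} {A : ValuationSubring L} {p : ℕ}

omit [DecidableEq L] [Algebra.IsAlgebraic ℚ L] [IsAlgClosed L] in
theorem val_intCast_eq_padicValInt (hp : p.Prime) (hA : A.LiesOverPrime p) {c : ℤ} (hc : c ≠ 0) :
    A.valuation (c : L) = A.valuation (p : L) ^ padicValInt p c := by
  have hfin : FiniteMultiplicity (p : ℤ) c := by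
    rw [Int.finiteMultiplicity_iff]
    refine ⟨?_, hc⟩
    rw [Int.natAbs_natCast]
    exact hp.one_lt.ne'
  obtain ⟨m, hm, hnd⟩ := hfin.exists_eq_pow_mul_and_not_dvd
  rw [padicValInt.of_ne_one_ne_zero hp.one_lt.ne' hc]
  conv_lhs => rw [hm]
  push_cast
  rw [map_mul, map_pow, H09.val_intCast_eq_one hp hA hnd, mul_one]

omit [DecidableEq L] [Algebra.IsAlgebraic ℚ L] in
theorem exists_peuData (hW₁ : W₁.map (Int.castRingHom L) = (W₀⁄L)) (hΔ0 : W₁.Δ ≠ 0)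
    (hp : p.Prime) (hp5 : 5 ≤ p) (hpΔ : (p : ℤ) ∣ W₁.Δ) (hc₄ : ¬ (p : ℤ) ∣ W₁.c₄)
    (hdiv : p ∣ padicValInt p W₁.Δ) (hA : A.LiesOverPrime p) :
    (W₀⁄L).Δ ≠ 0 ∧ A.valuation (W₀⁄L).c₄ = 1 ∧
    ∃ (r t α β ζ : L) (k : ℕ), PeuData W₀ A r t α β p ζ k := by
  classical
  have h0 : (W₀⁄L).Δ ≠ 0 := by
    rw [← hW₁, map_Δ]; simpa using hΔ0
  have h1 : A.valuation (W₀⁄L).Δ < 1 := by
    rw [← hW₁, map_Δ]; exact H09.val_intCast_lt_one hA hpΔ
  have h2 : A.valuation (W₀⁄L).c₄ = 1 := by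
    rw [← hW₁, map_c₄]; exact H09.val_intCast_eq_one hp hA hc₄
  have hint : IsIntegralFor A.valuation (W₀⁄L) := isIntegralFor_of_int hW₁
  refine ⟨h0, h2, ?_⟩
  obtain ⟨r, t, α, β, h⟩ := exists_nodeData hint h0 h1 h2
  have : NeZero p := ⟨hp.ne_zero⟩
  have : NeZero (p : L) := ⟨Nat.cast_ne_zero.mpr hp.ne_zero⟩
  obtain ⟨ζ, hζ⟩ := HasEnoughRootsOfUnity.exists_primitiveRoot L p
  obtain ⟨k, hk⟩ := hdiv
  refine ⟨r, t, α, β, ζ, k, ⟨hp, by omega, val_natCast_lt_one hA, hζ⟩, hp5, h, ?_, ?_⟩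
  · rw [Nat.one_le_iff_ne_zero]
    rintro rfl
    rw [mul_zero, padicValInt, padicValNat.eq_zero_iff] at hk
    rcases hk with hk | hk | hk
    · exact hp.one_lt.ne' hk
    · exact hΔ0 (Int.natAbs_eq_zero.mp hk)
    · exact hk (Int.natCast_dvd.mp hpΔ)
  · rw [val_a₆_eq_val_Δ h, ← hW₁, map_Δ, ← hk]
    exact val_intCast_eq_padicValInt hp hA hΔ0

/-- **Existence of the line.** -/
theorem exists_line (hW₁ : W₁.map (Int.castRingHom L) = (W₀⁄L)) (hΔ0 : W₁.Δ ≠ 0)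
    (hp : p.Prime) (hp5 : 5 ≤ p) (hpΔ : (p : ℤ) ∣ W₁.Δ) (hc₄ : ¬ (p : ℤ) ∣ W₁.c₄)
    (hdiv : p ∣ padicValInt p W₁.Δ) (hA : A.LiesOverPrime p) :
    ∃ S : AddSubgroup (Submodule.torsionBy ℤ (W₀⁄L).Point (p : ℤ)), Nat.card S = p ∧
      (∀ y : Submodule.torsionBy ℤ (W₀⁄L).Point (p : ℤ),
        y ∈ S ↔ InE1 A.valuation (y : (W₀⁄L).Point)) ∧
      ∀ σ ∈ A.inertiaSubgroupIn ℚ,
        ∀ x : Submodule.torsionBy ℤ (W₀⁄L).Point (p : ℤ), σ • x - x ∈ S := by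
  obtain ⟨h0, h2, r, t, α, β, ζ, k, D⟩ := exists_peuData hW₁ hΔ0 hp hp5 hpΔ hc₄ hdiv hA
  refine ⟨E1p D, card_E1p D h0 h2, fun y => Iff.rfl, ?_⟩
  intro σ hσ x
  exact (D.smul_sub hσ (tors_coe x)).1

variable (hW₁ : W₁.map (Int.castRingHom L) = (W₀⁄L)) (hΔ0 : W₁.Δ ≠ 0)
    (hp : p.Prime) (hp5 : 5 ≤ p) (hpΔ : (p : ℤ) ∣ W₁.Δ) (hc₄ : ¬ (p : ℤ) ∣ W₁.c₄)
    (hdiv : p ∣ padicValInt p W₁.Δ) (hA : A.LiesOverPrime p)
    (S : AddSubgroup (Submodule.torsionBy ℤ (W₀⁄L).Point (p : ℤ))) (hS : Nat.card S = p)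
    (hSI : ∀ σ ∈ A.inertiaSubgroupIn ℚ,
      ∀ x : Submodule.torsionBy ℤ (W₀⁄L).Point (p : ℤ), σ • x - x ∈ S)

include hW₁ hΔ0 hp hp5 hpΔ hc₄ hdiv hA hS hSI

/-- **Uniqueness of the line.** -/
theorem mem_line_iff (y : Submodule.torsionBy ℤ (W₀⁄L).Point (p : ℤ)) :
    y ∈ S ↔ InE1 A.valuation (y : (W₀⁄L).Point) := by
  obtain ⟨h0, h2, r, t, α, β, ζ, k, D⟩ := exists_peuData hW₁ hΔ0 hp hp5 hpΔ hc₄ hdiv hA
  rw [eq_E1p D h0 h2 hA S hS hSI]
  exact mem_E1p D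

/-- Inertia acts on the line through the cyclotomic character. -/
theorem smul_line {σ : L ≃ₐ[ℚ] L} (hσ : σ ∈ A.inertiaSubgroupIn ℚ)
    {y : Submodule.torsionBy ℤ (W₀⁄L).Point (p : ℤ)} (hy : y ∈ S) {m : ℕ}
    (hm : ∀ η : L, η ^ p = 1 → σ η = η ^ m) : σ • y = m • y := by
  obtain ⟨h0, h2, r, t, α, β, ζ, k, D⟩ := exists_peuData hW₁ hΔ0 hp hp5 hpΔ hc₄ hdiv hA
  have hy' := (mem_line_iff hW₁ hΔ0 hp hp5 hpΔ hc₄ hdiv hA S hS hSI y).mp hy
  apply Subtype.ext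
  exact smul_E1 D hy' (tors_coe y) hσ hm

/-- **(N4)** The extension class of `E[p]` restricted to inertia is peu ramifiée. -/
theorem peu_ramifiee (lam : Submodule.torsionBy ℤ (W₀⁄L).Point (p : ℤ) → L)
    (hmul : ∀ a ∈ S, ∀ b ∈ S, lam (a + b) = lam a * lam b) (hne : ∀ a ∈ S, lam a ≠ 0)
    (x : Submodule.torsionBy ℤ (W₀⁄L).Point (p : ℤ)) :
    ∃ u : L, u ≠ 0 ∧ (∀ σ ∈ A.inertiaSubgroupIn ℚ, σ (u ^ p) = u ^ p) ∧
      (∃ n : ℤ, A.valuation (u ^ p) = A.valuation (p : L) ^ ((p : ℤ) * n)) ∧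
      ∀ σ ∈ A.inertiaSubgroupIn ℚ, σ u = lam (σ • x - x) * u := by
  obtain ⟨h0, h2, r, t, α, β, ζ, k, D⟩ := exists_peuData hW₁ hΔ0 hp hp5 hpΔ hc₄ hdiv hA
  have R := D.R
  have hSeq := eq_E1p D h0 h2 hA S hS hSI
  obtain ⟨w, hw⟩ := exists_isLogVal (L := L) hp hA
  obtain ⟨u, hu0, hu1, ⟨n, hn⟩, hu2⟩ := exists_kummer' D hw (tors_coe x)
  have hl0 : lam 0 = 1 := by
    have h3 := hmul 0 S.zero_mem 0 S.zero_mem
    rw [add_zero] at h3
    exact (mul_left_cancel₀ (hne 0 S.zero_mem) (by rw [mul_one]; exact h3)).symm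
  have hln : ∀ (m : ℕ), ∀ a ∈ S, lam (m • a) = lam a ^ m := by
    intro m a ha
    induction m with
    | zero => rw [zero_smul, hl0, pow_zero]
    | succ m ih => rw [succ_nsmul, hmul _ (S.nsmul_mem ha m) _ ha, ih, pow_succ]
  -- `lam` is a power of `chi`
  obtain ⟨i, hi⟩ : ∃ i : ℕ, ∀ a ∈ S, lam a =
      chi A.valuation p ζ (W₀⁄L) r t α β (a : (W₀⁄L).Point) ^ i := by
    obtain ⟨T, hT0, hT1, hpT⟩ := exists_E1_tors R D.h.int h0 h2
    set T' : Submodule.torsionBy ℤ (W₀⁄L).Point (p : ℤ) := ⟨T, mem_torsion_iff.mpr hpT⟩ with hT'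
    have hTS : T' ∈ S := by rw [hSeq]; exact hT1
    have hfin : Finite S := Nat.finite_of_card_ne_zero (by rw [hS]; exact hp.ne_zero)
    have hle : AddSubgroup.zmultiples T' ≤ S := by
      rw [AddSubgroup.zmultiples_le]; exact hTS
    have hord : addOrderOf T' = p := by
      have hd : addOrderOf T' ∣ p := by
        apply addOrderOf_dvd_of_nsmul_eq_zero
        apply Subtype.ext
        exact hpT
      rcases (Nat.dvd_prime hp).mp hd with h3 | h3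
      · exfalso
        apply hT0
        exact congrArg Subtype.val (AddMonoid.addOrderOf_eq_one_iff.mp h3)
      · exact h3
    have heq : AddSubgroup.zmultiples T' = S :=
      AddSubgroup.eq_of_le_of_card_ge hle (by rw [Nat.card_zmultiples, hord, hS])
    have hc1 := chi_ne_one R D.h D.le hT0 hT1 hpT
    have hcp := (chi_spec R D.h D.le hT1 hpT).1
    have hprim : IsPrimitiveRoot (chi A.valuation p ζ (W₀⁄L) r t α β T) p := by
      have hd : orderOf (chi A.valuation p ζ (W₀⁄L) r t α β T) ∣ p :=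
        orderOf_dvd_of_pow_eq_one hcp
      rcases (Nat.dvd_prime hp).mp hd with h3 | h3
      · exact absurd (orderOf_eq_one_iff.mp h3) hc1
      · have := IsPrimitiveRoot.orderOf (chi A.valuation p ζ (W₀⁄L) r t α β T)
        rwa [h3] at this
    have hlp : lam T' ^ p = 1 := by
      rw [← hln p T' hTS]
      have : p • T' = 0 := Subtype.ext hpT
      rw [this, hl0]
    have : NeZero p := ⟨hp.ne_zero⟩
    obtain ⟨i, -, hi⟩ := hprim.eq_pow_of_pow_eq_one hlp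
    refine ⟨i, fun a ha => ?_⟩
    rw [← heq] at ha
    have hfo : IsOfFinAddOrder T' := isOfFinAddOrder_iff_nsmul_eq_zero.mpr
      ⟨p, hp.pos, Subtype.ext hpT⟩
    obtain ⟨m, rfl⟩ : ∃ m : ℕ, m • T' = a := by
      have h4 := (hfo.mem_multiples_iff_mem_zmultiples (y := a)).mpr ha
      exact (AddSubmonoid.mem_multiples_iff _ _).mp h4
    rw [hln m T' hTS, ← hi]
    have e : ((m • T' : Submodule.torsionBy ℤ (W₀⁄L).Point (p : ℤ)) : (W₀⁄L).Point) = m • T := rfl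
    rw [e, chi_nsmul D hT1 hpT, ← pow_mul, ← pow_mul, mul_comm]
  refine ⟨u ^ i, pow_ne_zero _ hu0, ?_, ⟨n * i, ?_⟩, ?_⟩
  · intro σ hσ
    rw [← pow_mul, mul_comm, pow_mul, map_pow, hu1 σ hσ]
  · rw [← pow_mul, mul_comm, pow_mul, map_pow, hn, ← zpow_natCast, ← zpow_mul, mul_assoc]
  · intro σ hσ
    rw [map_pow, hu2 σ hσ, mul_pow, hi _ (hSI σ hσ x)]
    rfl

end

section frey

variable (P : FreyPackage)

theorem frey_dvd_padicValInt (h : (P.p : ℤ) ∣ P.a * P.b * P.c) :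
    (P.p : ℤ) ∣ P.freyCurveInt.Δ ∧ ¬ (P.p : ℤ) ∣ P.freyCurveInt.c₄ ∧
      P.p ∣ padicValInt P.p P.freyCurveInt.Δ := by
  have hp := P.pp
  have hpi := Nat.prime_iff_prime_int.mp hp
  have hfact := Fact.mk hp
  have e := Fermat.Agent.H26.freyCurveInt_Δ P
  have hΔ0 := Fermat.Agent.H26.freyCurveInt_Δ_ne_zero P
  have h2 : ¬ (P.p : ℤ) ∣ 2 ^ 8 := by
    intro hd
    have h3 := Int.le_of_dvd (by norm_num) (hpi.dvd_of_dvd_pow hd)
    have h5 : (5 : ℤ) ≤ P.p := by exact_mod_cast P.hp5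
    omega
  have hΔ : (P.p : ℤ) ∣ P.freyCurveInt.Δ := by
    have h3 : (P.p : ℤ) ∣ 2 ^ 8 * P.freyCurveInt.Δ := by
      rw [e]
      exact dvd_pow h (by have := P.hp5; omega)
    exact (hpi.dvd_or_dvd h3).resolve_left h2
  refine ⟨hΔ, fun hc => Fermat.Agent.H26.freyCurveInt_isSemistableModel P P.p hp hΔ hc, ?_⟩
  have h3 := congrArg (padicValInt P.p) e
  rw [padicValInt.mul (by norm_num) hΔ0, padicValInt.eq_zero_of_not_dvd h2, zero_add] at h3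
  rw [h3]
  have h4 : padicValInt P.p ((P.a * P.b * P.c) ^ (2 * P.p)) =
      (2 * P.p) * padicValInt P.p (P.a * P.b * P.c) := by
    rw [padicValInt, Int.natAbs_pow, padicValNat.pow]
    rfl
  rw [h4, mul_assoc]
  exact Dvd.dvd.mul_left (Dvd.intro _ rfl) 2

end frey

end Fermat.Agent.N4
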